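import Fermat.Agent.S36.Mid.Ser
import Fermat.Agent.S36.TH.X

set_option autoImplicit false

/-!
# S36 / Mid / Ids : `ThetaIds A` for every commutative ring `A` (from chapter TH)
-/

noncomputable section

namespace Fermat.Agent.S36.Mid

/-- the three `θ`-identities hold over every commutative ring. -/
theorem thetaIds (A : Type) [CommRing A] : ThetaIds A :=
  ⟨TH.theta_j A, TH.theta_x3 A, TH.theta_x2 A⟩

end Fermat.Agent.S36.Mid
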