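import Fermat.Agent.S36.Inst.LocGen
import Fermat.Agent.S36.LG.Cases

set_option autoImplicit false
set_option linter.unusedSectionVars false

/-!
# S36 / Mid / Abs : LOCGEN (d), (e) -- the abstract part (language of `S34/Loc`, `S36/LG`)

`V : Fin 3 → ValuationSubring F`, `V 1 = V_mid`;  `n` a closed point of a chart through which only `V 1` passes.

* `midGen_of_cong` : `Y ∈ O_n ∩ 𝔪_mid`, `(Y^(q-1)/ϖ)^r ≡ y mod 𝔪_mid`, `y` a unit of `O_n`  ⟹  `MidGen`;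
* `OrdData.midGen` : LOCGEN (d) with the test functions `x₃`, `x₂` (lead's #449);
* `CuspData.midGen` : LOCGEN (e) with `Y = j(q²z)/j(z) - 1`.
-/

noncomputable section

namespace Fermat.Agent.S36.Mid

open Polynomial IntermediateField Fermat.Agent.S18 Fermat.Agent.S34 Fermat.Agent.S36.LG
open Fermat.Agent.S36.Inst

variable {R K F : Type} [CommRing R] [IsDomain R] [IsDiscreteValuationRing R] [Field K] [CharZero K]
  [Algebra R K] [IsFractionRing R K] [Field F] [Algebra K F] {ϖ : R} {t : F}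
  {V : Fin 3 → ValuationSubring F} {q : ℕ}

/-! ### generalities on `LocUnit` -/

theorem lu_mul {n : Ideal (CInt R K t)} [n.IsPrime] {y z : F} (hy : LocUnit n y)
    (hz : LocUnit n z) : LocUnit n (y * z) :=
  ⟨mul_ne_zero hy.1 hz.1, hy.2.1.mul hz.2.1, by rw [mul_inv]; exact hy.2.2.mul hz.2.2⟩

theorem lu_inv {n : Ideal (CInt R K t)} {z : F} (hz : LocUnit n z) : LocUnit n z⁻¹ :=
  ⟨inv_ne_zero hz.1, hz.2.2, by rw [inv_inv]; exact hz.2.1⟩

theorem lu_pow {n : Ideal (CInt R K t)} [n.IsPrime] {z : F} (hz : LocUnit n z) (j : ℕ) :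
    LocUnit n (z ^ j) :=
  ⟨pow_ne_zero _ hz.1, hz.2.1.pow j, by rw [← inv_pow]; exact hz.2.2.pow j⟩

/-- `y z = w`, `w` a unit, `y, z ∈ O_n` ⟹ `y` is a unit. -/
theorem lu_of_mul {n : Ideal (CInt R K t)} [n.IsPrime] {y z w : F} (hy : InLoc n y)
    (hz : InLoc n z) (hw : LocUnit n w) (e : y * z = w) : LocUnit n y := by
  have hy0 : y ≠ 0 := by
    rintro rfl
    rw [zero_mul] at e
    exact hw.1 e.symm
  refine ⟨hy0, hy, ?_⟩
  have : y⁻¹ = z * w⁻¹ := by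
    rw [← e]
    have hz0 : z ≠ 0 := by
      rintro rfl
      rw [mul_zero] at e
      exact hw.1 e.symm
    field_simp
  rw [this]
  exact hz.mul hw.2.2

theorem lu_rE {n : Ideal (CInt R K t)} [n.IsPrime] {r : R} (h : IsUnit r) :
    LocUnit n (rE R K F r) := by
  obtain ⟨r', hr'⟩ := h.exists_left_inv
  have h1 : rE R K F r' * rE R K F r = 1 := by rw [← map_mul, hr', map_one]
  have h0 : rE R K F r ≠ 0 := right_ne_zero_of_mul_eq_one h1
  refine ⟨h0, InLoc.rE r, ?_⟩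
  have : (rE R K F r)⁻¹ = rE R K F r' := inv_eq_of_mul_eq_one_left h1
  rw [this]
  exact InLoc.rE r'

/-- a unit plus an element of the maximal ideal is a unit. -/
theorem lu_add {n : Ideal (CInt R K t)} [n.IsPrime] {y z : F} (hy : LocUnit n y)
    (hz : InMax n z) : LocUnit n (y + z) := by
  refine LocUnit.of_not_inMax (hy.2.1.add hz.inLoc) fun h => ?_
  have := inMax_sub h hz
  rw [add_sub_cancel_right] at this
  exact not_locUnit_of_inMax n this hy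

/-- `P(s)` is a unit of `O_n` when `s ∈ 𝔪_n` and `P(0)` is a unit. -/
theorem lu_evR {n : Ideal (CInt R K t)} [n.IsPrime] {s : F} (hs : InMax n s) {P : R[X]}
    (hP : IsUnit (P.coeff 0)) : LocUnit n (evR R K s P) := by
  obtain ⟨P', hP'⟩ := X_dvd_sub_C (p := P)
  have e : evR R K s P = rE R K F (P.coeff 0) + evR R K s P' * s := by
    have : P = C (P.coeff 0) + P' * X := by
      have h2 : P = (P - C (P.coeff 0)) + C (P.coeff 0) := by ring
      rw [hP'] at h2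
      conv_lhs => rw [h2]
      ring
    conv_lhs => rw [this]
    rw [map_add, map_mul, evR_X, evR_C]
  rw [e]
  exact lu_add (lu_rE hP)
    (InMax.mul_left (InLoc.of_mem_CInt hs.inLoc (evR_mem_CInt s P')) hs)

/-! ### points lying on the middle component only -/

section
variable (hϖ : Irreducible ϖ) (hV : VertFam (K := K) ϖ t V) {n : Ideal (CInt R K t)}
  (honly : ∀ k, Centered (V k) n → k = 1)

include hϖ hV honly

theorem centered_one (hn : IsClosedPt ϖ n) : Centered (V 1) n := by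
  obtain ⟨k, hk⟩ := hV.exists_centered hϖ hn
  exact honly k hk ▸ hk

/-- integral over `K[J]`, `J ∈ O_n`, in `V_mid` ⟹ in `O_n`. -/
theorem inLoc_weak [n.IsPrime] {J z : F} (hJ : InLoc n J)
    (hz : IsIntegral (Algebra.adjoin K {J}) z) (hzV : z ∈ V 1) : InLoc n z := by
  obtain ⟨k, hk⟩ := Fermat.Agent.S34.exists_pow_mul_mem_CInt (R := R) (K := K) hϖ hz
  exact hV.sat_loc hϖ k (InLoc.of_mem_CInt hJ hk) fun j hj => honly j hj ▸ hzV

theorem locUnit_weak [n.IsPrime] {J z : F} (hJ : InLoc n J) (hz0 : z ≠ 0)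
    (hz : IsIntegral (Algebra.adjoin K {J}) z) (hz' : IsIntegral (Algebra.adjoin K {J}) z⁻¹)
    (hzV : z ∈ V 1) (hzV' : z⁻¹ ∈ V 1) : LocUnit n z :=
  ⟨hz0, inLoc_weak hϖ hV honly hJ hz hzV, inLoc_weak hϖ hV honly hJ hz' hzV'⟩

theorem inMax_of_mid (hn : IsClosedPt ϖ n) {z : F} (hz : InLoc n z) (hz' : z ∈ (V 1).nonunits) :
    InMax n z :=
  (centered_one hϖ hV honly hn).inMax (fun _ hy => hV.mem_of_mem_CInt hϖ hy 1) hz hz'

theorem mem_mid_of_inLoc (hn : IsClosedPt ϖ n) {z : F} (hz : InLoc n z) : z ∈ V 1 :=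
  (centered_one hϖ hV honly hn).mem_of_inLoc (fun _ hy => hV.mem_of_mem_CInt hϖ hy 1) hz

/-- **the criterion**. -/
theorem midGen_of_cong (hn : IsClosedPt ϖ n)
    (hram : ∀ z ∈ (V 1).nonunits, (rE R K F ϖ)⁻¹ * z ^ (q - 1) ∈ V 1) {Y y : F} (hY : InLoc n Y)
    (hY' : Y ∈ (V 1).nonunits) (hy : LocUnit n y) {r : ℕ} (hr : 0 < r)
    (hcong : ((rE R K F ϖ)⁻¹ * Y ^ (q - 1)) ^ r - y ∈ (V 1).nonunits) : MidGen ϖ q V n := by
  have := hn.max.isPrime
  exact ⟨Y, hY, hY', locUnit_of_pow_sub_mem (fun _ hy => hV.mem_of_mem_CInt hϖ hy 1)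
    (centered_one hϖ hV honly hn) (inLoc_pow_div_unif hϖ hV 1 honly hram hY hY') hy hr hcong⟩

omit honly in
/-- `q = 2`: `Y = ϖ`. -/
theorem midGen_two (hn : IsClosedPt ϖ n) : MidGen ϖ 2 V n := by
  have := hn.max.isPrime
  refine ⟨rE R K F ϖ, InLoc.rE ϖ, hV.mem 1, ?_⟩
  have h0 := rE_unif_ne_zero (K := K) (F := F) hϖ
  have e : (rE R K F ϖ)⁻¹ * rE R K F ϖ ^ (2 - 1) = rE R K F 1 := by
    rw [map_one]
    norm_num
    exact inv_mul_cancel₀ h0
  rw [e]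
  exact lu_rE isUnit_one

end

/-! ### LOCGEN (d) -/

/-- a test function `a` (`a' = a(q² z)`), with `(( a - a')^(q-1) / ϖ)^6 ≡ y`. -/
structure OrdFun (ϖ : R) (q : ℕ) (V : Fin 3 → ValuationSubring F) (J a a' y : F) : Prop where
  a_int : IsIntegral (Algebra.adjoin K {J}) a
  a'_int : IsIntegral (Algebra.adjoin K {J}) a'
  a_mem : a ∈ V 1
  a'_mem : a' ∈ V 1
  sub_mem : a - a' ∈ (V 1).nonunits
  cong : ((rE R K F ϖ)⁻¹ * (a - a') ^ (q - 1)) ^ 6 - y ∈ (V 1).nonunits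

theorem OrdFun.midGen (hϖ : Irreducible ϖ) (hV : VertFam (K := K) ϖ t V)
    {n : Ideal (CInt R K t)} (honly : ∀ k, Centered (V k) n → k = 1) (hn : IsClosedPt ϖ n)
    (hram : ∀ z ∈ (V 1).nonunits, (rE R K F ϖ)⁻¹ * z ^ (q - 1) ∈ V 1) {J a a' y : F}
    (h : OrdFun (K := K) ϖ q V J a a' y) (hJ : InLoc n J) (hy : LocUnit n y) : MidGen ϖ q V n := by
  have := hn.max.isPrime
  exact midGen_of_cong hϖ hV honly hn hram
    ((inLoc_weak hϖ hV honly hJ h.a_int h.a_mem).sub (inLoc_weak hϖ hV honly hJ h.a'_int h.a'_mem))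
    h.sub_mem hy (by norm_num) h.cong

/-- the data of LOCGEN (d).  `x₃`, `x₂` the Hauptmoduln of level `3`, `2`, `d = Δ(qz)/Δ(z)`. -/
structure OrdData (ϖ : R) (q : ℕ) (V : Fin 3 → ValuationSubring F) (J x₃ x₃' x₂ x₂' d : F) :
    Prop where
  d_ne : d ≠ 0
  d_int : IsIntegral (Algebra.adjoin K {J}) d
  d_int' : IsIntegral (Algebra.adjoin K {J}) d⁻¹
  d_mem : d ∈ V 1
  d_mem' : d⁻¹ ∈ V 1
  two : IsUnit (2 : R)
  rel₂ : (x₂ + 256) ^ 3 = J * x₂ ^ 2
  f₂ : OrdFun (K := K) ϖ q V J x₂ x₂' ((x₂ ^ 4 * (x₂ + 64) ^ 3) ^ (q - 1) * d)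
  three : q ≠ 3 → IsUnit (3 : R)
  rel₃ : q ≠ 3 → (x₃ + 27) * (x₃ + 243) ^ 3 = J * x₃ ^ 3
  f₃ : q ≠ 3 → OrdFun (K := K) ϖ q V J x₃ x₃' ((x₃ ^ 3 * (x₃ + 27) ^ 4) ^ (q - 1) * d)
  three' : q = 3 → ϖ ∣ (3 : R)
  cong₃ : q = 3 → J ^ 2 * d - 1 ∈ (V 1).nonunits

theorem il_nat {n : Ideal (CInt R K t)} [n.IsPrime] (m : ℕ) : InLoc n ((m : ℕ) : F) :=
  InLoc.of_mem n (natCast_mem _ m)

theorem rE_natCast (m : ℕ) : rE R K F (m : R) = (m : F) := map_natCast _ m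

/-- **LOCGEN (d)**. -/
theorem OrdData.midGen (hϖ : Irreducible ϖ) (hV : VertFam (K := K) ϖ t V)
    {n : Ideal (CInt R K t)} (honly : ∀ k, Centered (V k) n → k = 1) (hn : IsClosedPt ϖ n)
    (hram : ∀ z ∈ (V 1).nonunits, (rE R K F ϖ)⁻¹ * z ^ (q - 1) ∈ V 1) {J x₃ x₃' x₂ x₂' d : F}
    (D : OrdData (K := K) ϖ q V J x₃ x₃' x₂ x₂' d) (hJ : InLoc n J) : MidGen ϖ q V n := by
  have := hn.max.isPrime
  have hd : LocUnit n d := locUnit_weak hϖ hV honly hJ D.d_ne D.d_int D.d_int' D.d_mem D.d_mem'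
  have hnat : ∀ m : ℕ, InLoc n ((m : ℕ) : F) := fun m => il_nat m
  -- the line `x₂`
  have key₂ : LocUnit n (J - 1728) → MidGen ϖ q V n := by
    intro hJ'
    have hx : InLoc n x₂ := inLoc_weak hϖ hV honly hJ D.f₂.a_int D.f₂.a_mem
    have hc : LocUnit n (((2 ^ 24 : ℕ) : ℕ) : F) := by
      rw [← rE_natCast (R := R) (K := K)]
      refine lu_rE ?_
      have e : (((2 ^ 24 : ℕ) : ℕ) : R) = 2 ^ 24 := by norm_num
      rw [e]
      exact D.two.pow 24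
    have hx₂ : LocUnit n x₂ := by
      refine lu_of_mul hx (z := J * x₂ - (x₂ ^ 2 + ((768 : ℕ) : F) * x₂ + ((196608 : ℕ) : F)))
        ((hJ.mul hx).sub (((hx.pow 2).add ((hnat 768).mul hx)).add (hnat 196608))) hc ?_
      push_cast
      linear_combination (-1 : F) * D.rel₂
    have h64 : LocUnit n (x₂ + 64) := by
      refine lu_of_mul (hx.add (by simpa using hnat 64)) (z := (x₂ - 512) ^ 2)
        ((hx.sub (by simpa using hnat 512)).pow 2) (lu_mul hJ' (lu_pow hx₂ 2)) ?_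
      linear_combination D.rel₂
    exact D.f₂.midGen hϖ hV honly hn hram hJ
      (lu_mul (lu_pow (lu_mul (lu_pow hx₂ 4) (lu_pow h64 3)) _) hd)
  -- the line `x₃`
  have key₃ : q ≠ 3 → LocUnit n J → MidGen ϖ q V n := by
    intro h3 hJ'
    have hx : InLoc n x₃ := inLoc_weak hϖ hV honly hJ (D.f₃ h3).a_int (D.f₃ h3).a_mem
    have hc : LocUnit n (((3 ^ 18 : ℕ) : ℕ) : F) := by
      rw [← rE_natCast (R := R) (K := K)]
      refine lu_rE ?_
      have e : (((3 ^ 18 : ℕ) : ℕ) : R) = 3 ^ 18 := by norm_num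
      rw [e]
      exact (D.three h3).pow 18
    have hx₃ : LocUnit n x₃ := by
      refine lu_of_mul hx (z := J * x₃ ^ 2 - (x₃ ^ 3 + ((756 : ℕ) : F) * x₃ ^ 2 +
          ((196830 : ℕ) : F) * x₃ + ((19131876 : ℕ) : F)))
        ((hJ.mul (hx.pow 2)).sub ((((hx.pow 3).add ((hnat 756).mul (hx.pow 2))).add
          ((hnat 196830).mul hx)).add (hnat 19131876))) hc ?_
      push_cast
      linear_combination (-1 : F) * D.rel₃ h3
    have h27 : LocUnit n (x₃ + 27) :=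
      lu_of_mul (hx.add (by simpa using hnat 27)) (z := (x₃ + 243) ^ 3)
        ((hx.add (by simpa using hnat 243)).pow 3) (lu_mul hJ' (lu_pow hx₃ 3)) (D.rel₃ h3)
    exact (D.f₃ h3).midGen hϖ hV honly hn hram hJ
      (lu_mul (lu_pow (lu_mul (lu_pow hx₃ 3) (lu_pow h27 4)) _) hd)
  by_cases h3 : q = 3
  · -- `J` is a unit
    have hone : InLoc n (1 : F) := InLoc.of_mem n (one_mem _)
    have hu : InMax n (J ^ 2 * d - 1) :=
      inMax_of_mid hϖ hV honly hn (((hJ.pow 2).mul hd.2.1).sub hone) (D.cong₃ h3)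
    have hu' : LocUnit n (J ^ 2 * d) := by
      have := LocUnit.one_add hu
      rwa [add_sub_cancel] at this
    have hJu : LocUnit n J := lu_of_mul hJ (z := J * d) (hJ.mul hd.2.1) hu' (by ring)
    apply key₂
    obtain ⟨c, hc⟩ := D.three' h3
    have h1728 : InMax n (-(1728 : F)) := by
      have e : -(1728 : F) = (-((576 : ℕ) : F) * rE R K F c) * rE R K F ϖ := by
        have h4 : rE R K F ϖ * rE R K F c = 3 := by
          rw [← map_mul, ← hc, map_ofNat]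
        push_cast
        linear_combination (576 : F) * h4
      rw [e]
      exact InMax.mul_left ((hnat 576).neg.mul (InLoc.rE c)) hn.inMax_unif
    have := lu_add hJu h1728
    rwa [← sub_eq_add_neg] at this
  · by_cases hJm : InMax n J
    · apply key₂
      have hc : LocUnit n (-(((1728 : ℕ) : ℕ) : F)) := by
        have h5 : LocUnit n (rE R K F (-(2 ^ 6 * 3 ^ 3 : R))) :=
          lu_rE (((D.two.pow 6).mul ((D.three h3).pow 3)).neg)
        have e : rE R K F (-(2 ^ 6 * 3 ^ 3 : R)) = -(((1728 : ℕ) : ℕ) : F) := by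
          rw [map_neg, map_mul, map_pow, map_pow, map_ofNat, map_ofNat]
          norm_num
        rwa [e] at h5
      have := lu_add hc hJm
      have e : -(((1728 : ℕ) : ℕ) : F) + J = J - 1728 := by push_cast; ring
      rwa [e] at this
    · exact key₃ h3 (LocUnit.of_not_inMax hJ hJm)

/-! ### LOCGEN (e) -/

/-- the data of LOCGEN (e): `u = J^(q-1) Δ(qz)/Δ(z)`. -/
structure CuspData (ϖ : R) (q : ℕ) (V : Fin 3 → ValuationSubring F) (J Jqq u : F) : Prop where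
  sub_mem : Jqq / J - 1 ∈ (V 1).nonunits
  cong : ((rE R K F ϖ)⁻¹ * (Jqq / J - 1) ^ (q - 1)) ^ 6 -
    (1 - 1728 * J⁻¹) ^ (3 * (q - 1)) * u ∈ (V 1).nonunits
  rat : ∃ P₁ R₁ : R[X], IsUnit (P₁.coeff 0) ∧ IsUnit (R₁.coeff 0) ∧
    evR R K J⁻¹ R₁ * u - evR R K J⁻¹ P₁ ∈ (V 1).nonunits

/-- **LOCGEN (e)**. -/
theorem CuspData.midGen (hϖ : Irreducible ϖ) (hV : VertFam (K := K) ϖ t V)
    {n : Ideal (CInt R K t)} (honly : ∀ k, Centered (V k) n → k = 1) (hn : IsClosedPt ϖ n)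
    (hram : ∀ z ∈ (V 1).nonunits, (rE R K F ϖ)⁻¹ * z ^ (q - 1) ∈ V 1) {J Jqq u : F}
    (D : CuspData (K := K) ϖ q V J Jqq u) (hJ : InMax n J⁻¹) (hρ : InLoc n (Jqq / J)) :
    MidGen ϖ q V n := by
  have := hn.max.isPrime
  obtain ⟨P₁, R₁, hP, hR, hrat⟩ := D.rat
  have hone : InLoc n (1 : F) := InLoc.of_mem n (one_mem _)
  have hPu := lu_evR hJ hP
  have hRu := lu_evR hJ hR
  have hA : LocUnit n ((1 - 1728 * J⁻¹) ^ (3 * (q - 1))) := by
    apply lu_pow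
    have h1 : InMax n (-(((1728 : ℕ) : ℕ) : F) * J⁻¹) := InMax.mul_left (il_nat 1728).neg hJ
    have := LocUnit.one_add h1
    have e : 1 + -(((1728 : ℕ) : ℕ) : F) * J⁻¹ = 1 - 1728 * J⁻¹ := by push_cast; ring
    rwa [e] at this
  refine midGen_of_cong hϖ hV honly hn hram (hρ.sub hone) D.sub_mem
    (lu_mul hA (lu_mul hPu (lu_inv hRu))) (r := 6) (by norm_num) ?_
  have e : ((rE R K F ϖ)⁻¹ * (Jqq / J - 1) ^ (q - 1)) ^ 6 -
      (1 - 1728 * J⁻¹) ^ (3 * (q - 1)) * (evR R K J⁻¹ P₁ * (evR R K J⁻¹ R₁)⁻¹) =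
      (((rE R K F ϖ)⁻¹ * (Jqq / J - 1) ^ (q - 1)) ^ 6 - (1 - 1728 * J⁻¹) ^ (3 * (q - 1)) * u) +
      ((1 - 1728 * J⁻¹) ^ (3 * (q - 1)) * (evR R K J⁻¹ R₁)⁻¹) *
        (evR R K J⁻¹ R₁ * u - evR R K J⁻¹ P₁) := by
    have h1 : (evR R K J⁻¹ R₁)⁻¹ * evR R K J⁻¹ R₁ = 1 := inv_mul_cancel₀ hRu.1
    linear_combination (-((1 - 1728 * J⁻¹) ^ (3 * (q - 1)) * u)) * h1
  rw [e]
  exact add_mem_nonunits _ D.cong (mul_mem_nonunits _
    (mem_mid_of_inLoc hϖ hV honly hn (hA.2.1.mul hRu.2.2)) hrat)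

end Fermat.Agent.S36.Mid
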