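import Fermat.Agent.S36.Inst.Maps

set_option autoImplicit false
set_option linter.unusedSectionVars false

/-!
# S36 / Mid / Cong : the second order middle congruence

`T : V3.Three R' K' F T1`.  If `jm a = A(Q)`, `jm a' = A(ζ Q)` with `A ∈ R'((Q))` then
`(a - a')^(q-1) / q ≡ - (θ A)^(q-1)  mod 𝔪_mid`,  `θ = Q d/dQ`
(`A(Q) - A(ζQ) = (1-ζ) θA + (1-ζ)² v`, `q = υ (1-ζ)^(q-1)`, `υ ≡ (q-1)! ≡ -1`).
-/

noncomputable section

namespace Fermat.Agent.S36.Mid

open ModularCurve Polynomial Fermat.Agent.S18 Fermat.Agent.S18.V Fermat.Agent.S34.V2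
open Fermat.Agent.S36.V3

/-- `θ = Q d/dQ`. -/
def th {A : Type} [CommRing A] (x : LaurentSeries A) : LaurentSeries A :=
  Cyclo.mulCoeff (fun n : ℤ => (n : A)) x

theorem th_coeff {A : Type} [CommRing A] (x : LaurentSeries A) (n : ℤ) :
    (th x).coeff n = (n : A) * x.coeff n := rfl

section Wilson

variable {R' : Type} [CommRing R'] [IsDomain R'] [IsLocalRing R'] {q : ℕ}

/-- `q = υ (1-ζ)^(q-1)` with `υ ≡ -1`. -/
theorem residue_upsilon (hq : q.Prime) (ζ : R'ˣ) (hζ : IsPrimitiveRoot ζ q)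
    (hqR : ¬ IsUnit (q : R')) {u : R'} (hu : (q : R') = u * (1 - (ζ : R')) ^ (q - 1)) :
    IsLocalRing.residue R' u = -1 := by
  obtain ⟨n, rfl⟩ : ∃ n, q = n + 1 := ⟨q - 1, by have := hq.pos; omega⟩
  have hμ : IsPrimitiveRoot (ζ : R') (n + 1) := IsPrimitiveRoot.coe_units_iff.2 hζ
  have h1 := hμ.prod_one_sub_pow_eq_order
  have hlam := lam_ne_zero hq ζ hζ
  have h2 : ∀ k ∈ Finset.range n, (1 - (ζ : R') ^ (k + 1)) =
      (1 - (ζ : R')) * ∑ i ∈ Finset.range (k + 1), (ζ : R') ^ i := by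
    intro k _
    exact (mul_neg_geom_sum _ _).symm
  rw [Finset.prod_congr rfl h2, Finset.prod_mul_distrib, Finset.prod_const, Finset.card_range] at h1
  have h3 : u = ∏ k ∈ Finset.range n, ∑ i ∈ Finset.range (k + 1), (ζ : R') ^ i := by
    have h4 : (1 - (ζ : R')) ^ n * u =
        (1 - (ζ : R')) ^ n * ∏ k ∈ Finset.range n, ∑ i ∈ Finset.range (k + 1), (ζ : R') ^ i := by
      have hu' : ((n + 1 : ℕ) : R') = u * (1 - (ζ : R')) ^ n := by simpa using hu
      rw [h1, mul_comm, ← hu']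
      push_cast
      ring
    exact mul_left_cancel₀ (pow_ne_zero _ hlam) h4
  have hζ1 : IsLocalRing.residue R' (ζ : R') = 1 := by
    have h5 : IsLocalRing.residue R' (1 - (ζ : R')) = 0 :=
      (IsLocalRing.residue_eq_zero_iff _).2
        ((IsLocalRing.mem_maximalIdeal _).2 (not_isUnit_lam hq ζ hζ hqR))
    rw [map_sub, map_one, sub_eq_zero] at h5
    exact h5.symm
  have hq0 : ((n + 1 : ℕ) : IsLocalRing.ResidueField R') = 0 := by
    have h5 : IsLocalRing.residue R' ((n + 1 : ℕ) : R') = 0 :=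
      (IsLocalRing.residue_eq_zero_iff _).2 ((IsLocalRing.mem_maximalIdeal _).2 hqR)
    rwa [map_natCast] at h5
  rw [h3, map_prod]
  have h6 : ∀ k ∈ Finset.range n, IsLocalRing.residue R' (∑ i ∈ Finset.range (k + 1), (ζ : R') ^ i) =
      ((k + 1 : ℕ) : IsLocalRing.ResidueField R') := by
    intro k _
    rw [map_sum]
    simp [hζ1]
  rw [Finset.prod_congr rfl h6, ← Nat.cast_prod, Finset.prod_range_add_one_eq_factorial]
  have : Fact (n + 1).Prime := ⟨hq⟩
  have hw := ZMod.wilsons_lemma (p := n + 1)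
  rw [Nat.add_sub_cancel] at hw
  have hdvd : (n + 1) ∣ n.factorial + 1 := by
    rw [← ZMod.natCast_eq_zero_iff]
    push_cast
    rw [hw]
    ring
  obtain ⟨c, hc⟩ := hdvd
  have h7 : ((n.factorial + 1 : ℕ) : IsLocalRing.ResidueField R') = 0 := by
    rw [hc, Nat.cast_mul, hq0, zero_mul]
  push_cast at h7
  exact eq_neg_of_add_eq_zero_left h7

theorem redR_C (a : R') : Gauss.redR R' (HahnSeries.C a) = HahnSeries.C (IsLocalRing.residue R' a) := by
  ext n
  show IsLocalRing.residue R' ((HahnSeries.single 0 a).coeff n) = (HahnSeries.single 0 _).coeff n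
  by_cases hn : n = 0
  · subst hn; simp
  · rw [HahnSeries.coeff_single_of_ne hn, HahnSeries.coeff_single_of_ne hn, map_zero]

/-- `(x(Q) - x(ζQ))^(q-1) = q w`, `w ≡ - (θ x)^(q-1)`. -/
theorem exists_xi (hq : q.Prime) (ζ : R'ˣ) (hζ : IsPrimitiveRoot ζ q) (hqR : ¬ IsUnit (q : R'))
    (x₀ : LaurentSeries R') :
    ∃ w : LaurentSeries R', (x₀ - S28.twist ζ x₀) ^ (q - 1) = HahnSeries.C (q : R') * w ∧
      Gauss.redR R' w = - (Gauss.redR R' (th x₀)) ^ (q - 1) := by
  obtain ⟨u, hu⟩ := natCast_eq hq ζ hζ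
  obtain ⟨θ, v, hθ, e⟩ := sub_twist_eq_theta hq ζ hζ x₀
  have hθ' : θ = th x₀ := by
    ext n
    rw [hθ, th_coeff]
  subst hθ'
  refine ⟨HahnSeries.C ((u⁻¹ : R'ˣ) : R') * (th x₀ + HahnSeries.C (1 - (ζ : R')) * v) ^ (q - 1),
    ?_, ?_⟩
  · have e1 : x₀ - S28.twist ζ x₀ =
        HahnSeries.C (1 - (ζ : R')) * (th x₀ + HahnSeries.C (1 - (ζ : R')) * v) := by
      rw [e, map_pow]; ring
    rw [e1, mul_pow, ← map_pow, ← mul_assoc, ← map_mul, hu]
    congr 2
    rw [mul_comm (u : R'), mul_assoc, Units.mul_inv, mul_one]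
  · have h1 := residue_upsilon hq ζ hζ hqR hu
    have h2 : IsLocalRing.residue R' ((u⁻¹ : R'ˣ) : R') = -1 := by
      have h3 : IsLocalRing.residue R' (u : R') * IsLocalRing.residue R' ((u⁻¹ : R'ˣ) : R') = 1 := by
        rw [← map_mul, Units.mul_inv, map_one]
      rw [h1] at h3
      linear_combination -h3
    have h4 : IsLocalRing.residue R' (1 - (ζ : R')) = 0 :=
      (IsLocalRing.residue_eq_zero_iff _).2
        ((IsLocalRing.mem_maximalIdeal _).2 (not_isUnit_lam hq ζ hζ hqR))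
    rw [map_mul, map_pow, map_add, map_mul, redR_C, redR_C, h2, h4, map_zero, zero_mul, add_zero,
      map_neg, map_one, neg_one_mul]

end Wilson

section Three

variable {R K : Type} [CommRing R] [IsDomain R] [IsDiscreteValuationRing R] [Field K] [CharZero K]
  [Algebra R K] [IsFractionRing R K] {R' K' : Type} [CommRing R'] [IsDomain R'] [IsLocalRing R']
  [Field K'] [Algebra R' K'] [IsFractionRing R' K'] {q : ℕ} [NeZero q] {E F1 F : Type}
  [Field E] [Field F1] [Field F] [Algebra K E] [Algebra K F1] [Algebra K F] [Algebra E F1]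
  [Algebra F1 F] [Algebra E F] [IsScalarTower K E F1] [IsScalarTower K F1 F] [IsScalarTower E F1 F]
  [IsScalarTower K E F] {T1 : Two R K q E F1} (T : Three R' K' F T1)

/-- the expansion of `(a - a')^(q-1) / q` at the middle cusp. -/
theorem exists_jm_xi {a a' : F} {A₀ : LaurentSeries R'} (ha : T.jm a = cR R' K' A₀)
    (ha' : T.jm a' = cR R' K' (S28.twist T.ζ A₀)) :
    ∃ w : LaurentSeries R', T.jm ((rE R K F (q : R))⁻¹ * (a - a') ^ (q - 1)) = cR R' K' w ∧
      Gauss.redR R' w = - (Gauss.redR R' (th A₀)) ^ (q - 1) := by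
  obtain ⟨w, hw, hw'⟩ := exists_xi T1.hq T.ζ T.hζ T.basic_not_isUnit_q A₀
  refine ⟨w, ?_, hw'⟩
  have hq0 : (q : LaurentSeries K') ≠ 0 := by
    rw [← T.basic_jm_q]
    exact (map_ne_zero T.jm).2 T.tc_rE_ne_zero
  have hC : cR R' K' (HahnSeries.C (q : R')) = (q : LaurentSeries K') := by
    have : (HahnSeries.C (q : R') : LaurentSeries R') = ((q : ℕ) : LaurentSeries R') := by
      rw [map_natCast]
    rw [this, map_natCast]
  rw [map_mul, map_inv₀, T.basic_jm_q, map_pow, map_sub, ha, ha', ← map_sub, ← map_pow, hw, map_mul,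
    hC, ← mul_assoc, inv_mul_cancel₀ hq0, one_mul]

/-- **the second order middle congruence**. -/
theorem xi_cong {a a' y : F} {A₀ Y₀ : LaurentSeries R'} (ha : T.jm a = cR R' K' A₀)
    (ha' : T.jm a' = cR R' K' (S28.twist T.ζ A₀)) (hy : T.jm y = cR R' K' Y₀) {r : ℕ}
    (hr : Even r) (h : (Gauss.redR R' (th A₀)) ^ ((q - 1) * r) = Gauss.redR R' Y₀) :
    ((rE R K F (q : R))⁻¹ * (a - a') ^ (q - 1)) ^ r - y ∈ T.Vmid.nonunits := by
  obtain ⟨w, hw, hw'⟩ := exists_jm_xi T ha ha'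
  rw [T.mem_Vmid_nonunits, map_sub, map_pow, hw, hy, ← map_pow, ← map_sub,
    cR_mem_nonunits_gaussLoc_iff, ← Gauss.redR_eq_zero_iff, map_sub, map_pow, hw', hr.neg_pow,
    ← pow_mul, h, sub_self]

end Three

end Fermat.Agent.S36.Mid
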