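import Fermat.Agent.S36.Mid.Abs
import Fermat.Agent.S36.Mid.Cong
import Fermat.Agent.S34.Mod.Main

set_option autoImplicit false
set_option linter.unusedSectionVars false

/-!
# S36 / Mid / Exp : elements of the three levels whose expansion is a series with INTEGER coefficients

`zS A f` = the image in `A((Q))` of `f ∈ ℤ((Q))`.  `T : V3.Three R' K' F T1`.
* `jm_ι₀_zS`, `jm_ι₂_zS`, `jm_α_zS` : expansions at the middle cusp;
* `mem_mid_of_red` : `jm z = cR Z₀`, `Z₀ ≡ 0` ⟹ `z ∈ 𝔪_mid`;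
* `ordFun_of` : the structure `OrdFun` for `a = ι₀ y`, `a' = ι₂ y`.
-/

noncomputable section

namespace Fermat.Agent.S36.Mid

open ModularCurve Polynomial Fermat.Agent.S18 Fermat.Agent.S18.V Fermat.Agent.S34.V2
open Fermat.Agent.S36.V3 Fermat.Agent.S36.LG Fermat.Agent.S36.Inst Fermat.Agent.Mod

/-- the image of an integral series. -/
def zS (A : Type) [CommRing A] : LaurentSeries ℤ →+* LaurentSeries A := coeffMap (Int.castRingHom A)

theorem coeffMap_zS {A B : Type} [CommRing A] [CommRing B] (φ : A →+* B) (f : LaurentSeries ℤ) :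
    coeffMap φ (zS A f) = zS B f := by
  rw [zS, zS, coeffMap_coeffMap]
  exact coeffMap_congr (RingHom.ext_int _ _) f

theorem zS_jq (A : Type) [CommRing A] : zS A (jqModC ℤ) = jqModC A := coeffMap_jqModC _

theorem zS_xZ (A : Type) [CommRing A] (Λ : Line) : zS A (xZ Λ) = xK A Λ := rfl

theorem zS_DKinv (A : Type) [CommRing A] (q : ℕ) [NeZero q] : zS A (DKinv ℤ q) = DKinv A q :=
  coeffMap_DKinv _ q

theorem zS_DK (A : Type) [CommRing A] (q : ℕ) [NeZero q] : zS A (DK ℤ q) = DK A q :=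
  coeffMap_DK _ q

theorem coeffMap_th {A B : Type} [CommRing A] [CommRing B] (φ : A →+* B) (x : LaurentSeries A) :
    coeffMap φ (th x) = th (coeffMap φ x) := by
  ext n
  rw [coeffMap_coeff, th_coeff, th_coeff, coeffMap_coeff, map_mul, map_intCast]

theorem redR_zS {R' : Type} [CommRing R'] [IsLocalRing R'] (f : LaurentSeries ℤ) :
    Gauss.redR R' (zS R' f) = zS (IsLocalRing.ResidueField R') f := coeffMap_zS _ f

theorem redR_th {R' : Type} [CommRing R'] [IsLocalRing R'] (x : LaurentSeries R') :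
    Gauss.redR R' (th x) = th (Gauss.redR R' x) := coeffMap_th _ x

theorem cR_zS {R K : Type} [CommRing R] [Field K] [Algebra R K] (f : LaurentSeries ℤ) :
    cR R K (zS R f) = zS K f := coeffMap_zS _ f

section Three

variable {R K : Type} [CommRing R] [IsDomain R] [IsDiscreteValuationRing R] [Field K] [CharZero K]
  [Algebra R K] [IsFractionRing R K] {R' K' : Type} [CommRing R'] [IsDomain R'] [IsLocalRing R']
  [Field K'] [Algebra R' K'] [IsFractionRing R' K'] {q : ℕ} [NeZero q] {E F1 F : Type}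
  [Field E] [Field F1] [Field F] [Algebra K E] [Algebra K F1] [Algebra K F] [Algebra E F1]
  [Algebra F1 F] [Algebra E F] [IsScalarTower K E F1] [IsScalarTower K F1 F] [IsScalarTower E F1 F]
  [IsScalarTower K E F] {T1 : Two R K q E F1} (T : Three R' K' F T1)

theorem jm_α_zS {z : F1} {f : LaurentSeries ℤ} (hz : T1.jF z = zS K f) :
    T.jm (algebraMap F1 F z) = cR R' K' (zS R' f) := by
  rw [T.jm_α, hz, coeffMap_zS, cR_zS]

theorem jm_ι₀_zS {y : E} {f : LaurentSeries ℤ} (hy : T1.jE y = zS K f) :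
    T.jm (T.ι₀ y) = cR R' K' (zS R' f) := by
  rw [T.ι₀_apply, IsScalarTower.algebraMap_apply E F1 F]
  exact jm_α_zS T (by rw [T1.compat, hy])

theorem jm_ι₂_zS {y : E} {f : LaurentSeries ℤ} (hy : T1.jE y = zS K f) :
    T.jm (T.ι₂ y) = cR R' K' (S28.twist T.ζ (zS R' f)) := by
  rw [T.ι₂_eq, T.jm_β, T1.i2_apply, T1.w_w, T1.compat, hy, coeffMap_zS, ← cR_zS (R := R') (K := K')]
  exact (S28.coeffMap_twist _ _ _).symm

theorem jF_ι₀ (y : E) : T.jF (T.ι₀ y) = T1.jE y := by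
  rw [T.ι₀_apply, IsScalarTower.algebraMap_apply E F1 F, T.compat, T1.compat]

theorem jF_ι₂ (y : E) : T.jF (T.ι₂ y) = qExpand K q (qExpand K q (T1.jE y)) := by
  rw [T.ι₂_eq, T.jF_β, T1.i2_apply, T1.w_E]

theorem mem_VE_zS {y : E} {f : LaurentSeries ℤ} (hy : T1.jE y = zS K f) : y ∈ T1.VE := by
  rw [T1.mem_VE, hy, ← cR_zS (R := R)]
  exact cR_mem_gaussL _

theorem mem_Vi_zS {z : F1} {f : LaurentSeries ℤ} (hz : T1.jF z = zS K f) : z ∈ T1.Vi := by
  rw [T1.mem_Vi, hz, ← cR_zS (R := R)]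
  exact cR_mem_gaussL _

theorem mem_mid_of_jm {z : F} {Z₀ : LaurentSeries R'} (hz : T.jm z = cR R' K' Z₀) :
    z ∈ T.Vmid := by
  rw [T.mem_Vmid, hz]
  exact cR_mem_gaussLoc _

theorem mem_mid_of_red {z : F} {Z₀ : LaurentSeries R'} (hz : T.jm z = cR R' K' Z₀)
    (h : Gauss.redR R' Z₀ = 0) : z ∈ T.Vmid.nonunits := by
  rw [T.mem_Vmid_nonunits, hz, cR_mem_nonunits_gaussLoc_iff, ← Gauss.redR_eq_zero_iff, h]

/-- integrality is read on the expansions at `∞`. -/
theorem isIntegral_of_jF {J z : F} (h : IntOver K (T.jF J) (T.jF z)) :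
    IsIntegral (Algebra.adjoin K {J}) z :=
  intOver_iff_isIntegral.1 (IntOver.of_map T.jF h)

/-- the structure `OrdFun` for `a = ι₀ y`, `a' = ι₂ y`. -/
theorem ordFun_of {JE y : E} {yF : F} {f g : LaurentSeries ℤ} (hJ : T1.jE JE = jqModC K)
    (hy : T1.jE y = zS K f) (hyF : T.jm yF = cR R' K' (zS R' g))
    (hint : IntOver K (jqModC K) (zS K f))
    (hint' : IntOver K (jqModC K) (qExpand K q (qExpand K q (zS K f))))
    (hser : th (zS (IsLocalRing.ResidueField R') f) ^ ((q - 1) * 6) =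
      zS (IsLocalRing.ResidueField R') g) :
    OrdFun (K := K) (q : R) q T.Vf (T.ι₀ JE) (T.ι₀ y) (T.ι₂ y) yF where
  a_int := isIntegral_of_jF T (by rw [jF_ι₀, jF_ι₀, hJ, hy]; exact hint)
  a'_int := isIntegral_of_jF T (by rw [jF_ι₀, jF_ι₂, hJ, hy]; exact hint')
  a_mem := mem_mid_of_jm T (jm_ι₀_zS T hy)
  a'_mem := mem_mid_of_jm T (jm_ι₂_zS T hy)
  sub_mem := T.Ya_mem (mem_VE_zS hy)
  cong := xi_cong T (jm_ι₀_zS T hy) (jm_ι₂_zS T hy) hyF (by decide) (by
    rw [redR_th, redR_zS, redR_zS, hser])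

end Three

end Fermat.Agent.S36.Mid
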