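import Fermat.Agent.S34.Mod.Main

set_option autoImplicit false
set_option linter.unusedSectionVars false

/-!
# S36 / Mid / Int : integrality over `K[j]` of `x`, `x(Q^{q²})`, `j(Q^{q²})`   (task MID-Int)

## SKETCHES  (`Mod.IntOver` API in `S34/Mod/IntOver.lean`)
* `int_x`: `S18.xK_rel K Λ hΛ : aeval x Bp = j * aeval x Ap`.  `line2`: `(x+256)^3 = j x^2`, i.e. `x^3 + (768 - j) x^2 + 196608 x + 16777216 = 0`;  `line3`: `(x+27)(x+243)^3 = j x^3`, i.e.
  `x^4 + (756 - j) x^3 + 196830 x^2 + 19131876 x + 387420489 = 0`.  `IntOver.of_rel n c` with `c k : K[X]` (`![..]`-style or `fun k => if ..`), `Finset.sum_range_succ`; or: `IntOver` of a root of a monic polynomial with `IntOver` coefficients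
  via `intOver_iff_isIntegral` + `isIntegral_trans`-free argument: `IsIntegral.of_aeval_monic`..; the first way is 15 lines per line.
* `int_jq`: `Mod.phiShape K q hq d hd : PhiShape K q (jS K (q*d)) (jS K d)`, unfold `PhiShape`: `X^(q+1) + ∑_{k<q+1} aeval Y (c k) X^k = 0` is exactly the hypothesis of `IntOver.of_rel (q+1) c`.
* `int_jqq`: `IntOver.trans (int_jq .. 1) (int_jq .. q)`; `jS K 1 = jqModC K` (`jS_one`), `jS K (q*q) = qExpand K q (qExpand K q (jqModC K))` (`jS_of_ne`, `qExpand_jS` / `qExpand_qExpand`).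
* `int_xqq`: apply the `K`-algebra hom `qExpandAlgHomC K q` twice to `int_x` (`IntOver.map`, `qExpandAlgHomC_apply`): `IntOver K (qExpand q (qExpand q j)) (qExpand q (qExpand q x))`; then `IntOver.trans int_jqq`.
-/

noncomputable section

namespace Fermat.Agent.S36.Mid

open ModularCurve Polynomial Fermat.Agent.S18 Fermat.Agent.Mod

variable (K : Type) [Field K] [CharZero K]

theorem int_x (Λ : Line) (hΛ : Λ = line2 ∨ Λ = line3) : IntOver K (jqModC K) (xK K Λ) := by
  have h := S18.xK_rel K Λ hΛ
  rcases hΛ with rfl | rfl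
  · have hA : line2.Ap = X ^ 2 := rfl
    have hB : line2.Bp = (X + 256) ^ 3 := rfl
    rw [hA, hB] at h
    simp only [map_pow, map_add, aeval_X, map_ofNat] at h
    refine IntOver.of_rel 3 (fun k => if k = 0 then C 16777216 else if k = 1 then C 196608 else
      C 768 - X) ?_
    simp only [Finset.sum_range_succ, Finset.sum_range_zero, if_true, one_ne_zero, if_false,
      OfNat.ofNat_ne_zero, OfNat.ofNat_ne_one, map_sub, aeval_C, aeval_X, map_ofNat]
    linear_combination h
  · have hA : line3.Ap = X ^ 3 := rfl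
    have hB : line3.Bp = (X + 27) * (X + 243) ^ 3 := rfl
    rw [hA, hB] at h
    simp only [map_pow, map_add, map_mul, aeval_X, map_ofNat] at h
    refine IntOver.of_rel 4 (fun k => if k = 0 then C 387420489 else if k = 1 then C 19131876 else
      if k = 2 then C 196830 else C 756 - X) ?_
    have h32 : ¬ (3 : ℕ) = 2 := by norm_num
    simp only [Finset.sum_range_succ, Finset.sum_range_zero, if_true, one_ne_zero, if_false,
      OfNat.ofNat_ne_zero, OfNat.ofNat_ne_one, map_sub, aeval_C, aeval_X, map_ofNat, h32]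
    linear_combination h

theorem int_jq (q : ℕ) (hq : q.Prime) (d : ℕ) (hd : d ≠ 0) : IntOver K (jS K d) (jS K (q * d)) := by
  obtain ⟨c, hc, -⟩ := Mod.phiShape K q hq d hd
  exact IntOver.of_rel (q + 1) c hc

theorem int_jqq (q : ℕ) [NeZero q] (hq : q.Prime) :
    IntOver K (jqModC K) (qExpand K q (qExpand K q (jqModC K))) := by
  have h1 := int_jq K q hq 1 one_ne_zero
  have h2 := int_jq K q hq q hq.ne_zero
  rw [mul_one] at h1
  have h3 := h1.trans h2
  have h4 : jS K (q * q) = qExpand K q (qExpand K q (jqModC K)) := by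
    rw [← qExpand_jS, ← jS_of_ne]
  rw [jS_one, h4] at h3
  exact h3

theorem int_xqq (Λ : Line) (hΛ : Λ = line2 ∨ Λ = line3) (q : ℕ) [NeZero q] (hq : q.Prime) :
    IntOver K (jqModC K) (qExpand K q (qExpand K q (xK K Λ))) := by
  have h1 := ((int_x K Λ hΛ).map (qExpandAlgHomC K q)).map (qExpandAlgHomC K q)
  simp only [qExpandAlgHomC_apply] at h1
  exact (int_jqq K q hq).trans h1

end Fermat.Agent.S36.Mid
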