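import Fermat.Agent.S34.V2.Gauss
import Fermat.Agent.S34.Mod.Defs
import Fermat.Agent.S18.AT.Defs

set_option autoImplicit false
set_option linter.unusedSectionVars false

/-!
# S36 / Mid / RatFrac : an element of `K(j)` is a primitive fraction in `s = 1/j`   (task MID-Rat-Frac)

## SKETCH  (step (3) of `Mid/Rat.lean`)
(a) `FK K 1 = K⟮j⟯`: `Mod.FK_eq_adjoin K 1`, `Set.range (jFam K 1) = {jqModC K}` (the only divisor of `1` is `1`; `Mod.jS_one`); `K⟮j⟯ = K⟮j⁻¹⟯` (`adjoin_simple_le_iff`, `inv_mem`; cf. `S24.principal_adjoin_inv_eq` or the proof of `LG.VertFam.inv`).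
(b) `IntermediateField.mem_adjoin_simple_iff`: `y = aeval s p / aeval s r`, `p r : K[X]`; if `aeval s r = 0` take `p = 0`, `r = 1`... (then `y = 0`); so wlog `aeval s r ≠ 0`, `y * aeval s r = aeval s p`, `(p, r) ≠ (0, 0)` (indeed `r ≠ 0`).
(c) clear denominators: `IsLocalization.integerNormalization` / `IsFractionRing` : there is `d : R`, `d ≠ 0` with `d • p = P₀.map (algebraMap R K)`, `d • r = R₀.map (algebraMap R K)`, `R₀ ≠ 0`.
(d) divide by the content: `ϖ` a uniformiser (`IsDiscreteValuationRing.exists_irreducible`); induction on / `Nat.find` of the largest `k` with `C (ϖ^k) ∣ P₀` and `C (ϖ^k) ∣ R₀`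
    (exists because `R₀ ≠ 0`: a nonzero coefficient `= unit * ϖ^n` bounds `k`; `IsDiscreteValuationRing.eq_unit_mul_pow_irreducible`).  `P₀ = C (ϖ^k) * P`, `R₀ = C (ϖ^k) * R'`; not both `P`, `R'` are divisible by `C ϖ`
    (`Polynomial.C_dvd_iff_dvd_coeff`), and a coefficient not divisible by `ϖ` is a unit (`IsDiscreteValuationRing.irreducible_iff_uniformizer`, `IsLocalRing.mem_maximalIdeal`, `Ideal.mem_span_singleton`).
    ALTERNATIVE for (c)+(d): `R` is a GCD/normalised domain? use `Polynomial.content`/`primPart` if the instances are available (`IsPrincipalIdealRing` ⟹ `NormalizedGCDMonoid` noncomputably).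
(e) `evR R K s P = aeval s (P.map (algebraMap R K))` (`evR`, `eval₂RingHom`, `Polynomial.eval₂_map`/`aeval_def`; `rE R K E = (algebraMap K E).comp (algebraMap R K)`); cancel the nonzero constant `d⁻¹ ϖ^k`.
-/

noncomputable section

namespace Fermat.Agent.S36.Mid

open ModularCurve Polynomial IntermediateField Fermat.Agent.S18 Fermat.Agent.S18.V Fermat.Agent.S34.V2

theorem rf_mem_adjoin_inv {K : Type} [Field K] {y : LaurentSeries K}
    (hy : y ∈ Fermat.Agent.Mod.FK K 1) : y ∈ K⟮(jqModC K)⁻¹⟯ := by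
  rw [Fermat.Agent.Mod.FK_eq_adjoin] at hy
  refine (IntermediateField.adjoin_le_iff.2 ?_) hy
  rintro _ ⟨⟨d, hd⟩, rfl⟩
  have hd1 : d = 1 := Nat.dvd_one.1 hd
  subst hd1
  change Fermat.Agent.Mod.jS K 1 ∈ _
  rw [Fermat.Agent.Mod.jS_one]
  have := inv_mem (mem_adjoin_simple_self K (jqModC K)⁻¹)
  rwa [inv_inv] at this

theorem rf_evR_eq {R K : Type} [CommRing R] [Field K] [Algebra R K] (s : LaurentSeries K) (P : R[X]) :
    evR R K s P = aeval s (P.map (algebraMap R K)) := by
  rw [aeval_def, eval₂_map]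
  rfl

/-- a pair of polynomials over `K`, not both zero, can be scaled to a primitive pair over `R`. -/
theorem rf_scale {R K : Type} [CommRing R] [IsDomain R] [IsDiscreteValuationRing R] [Field K]
    [Algebra R K] [IsFractionRing R K] (p r : K[X]) (hr : r ≠ 0) :
    ∃ (c : K) (P R' : R[X]), c ≠ 0 ∧ P.map (algebraMap R K) = C c * p ∧
      R'.map (algebraMap R K) = C c * r ∧ ((∃ i, IsUnit (P.coeff i)) ∨ ∃ i, IsUnit (R'.coeff i)) := by
  classical
  set v := ValuationRing.valuation R K with hv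
  set S : Finset K := p.support.image p.coeff ∪ r.support.image r.coeff with hS
  have hSne : S.Nonempty := by
    obtain ⟨i, hi⟩ := Polynomial.support_nonempty.2 hr
    exact ⟨r.coeff i, Finset.mem_union_right _ (Finset.mem_image_of_mem _ hi)⟩
  obtain ⟨c, hcS, hmax⟩ := Finset.exists_max_image S v hSne
  have hS0 : ∀ x ∈ S, x ≠ 0 := by
    intro x hx
    rcases Finset.mem_union.1 hx with h | h <;> obtain ⟨i, hi, rfl⟩ := Finset.mem_image.1 h <;>
      exact Polynomial.mem_support_iff.1 hi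
  have hc0 : c ≠ 0 := hS0 c hcS
  have hlift : ∀ g : K[X], (∀ i, g.coeff i ≠ 0 → g.coeff i ∈ S) →
      ∃ G : R[X], G.map (algebraMap R K) = C c⁻¹ * g := by
    intro g hg
    rw [← Polynomial.mem_lifts, Polynomial.lifts_iff_coeff_lifts]
    intro n
    rw [coeff_C_mul]
    by_cases h0 : g.coeff n = 0
    · exact ⟨0, by rw [h0, mul_zero, map_zero]⟩
    · have h1 : v (c⁻¹ * g.coeff n) ≤ 1 := by
        rw [map_mul, map_inv₀]
        have hvc : v c ≠ 0 := (Valuation.ne_zero_iff _).2 hc0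
        rw [inv_mul_le_iff₀ (zero_lt_iff.2 hvc), mul_one]
        exact hmax _ (hg n h0)
      exact (ValuationRing.mem_integer_iff R K _).1 h1
  obtain ⟨P, hP⟩ := hlift p (fun i hi => Finset.mem_union_left _
    (Finset.mem_image_of_mem _ (Polynomial.mem_support_iff.2 hi)))
  obtain ⟨R', hR'⟩ := hlift r (fun i hi => Finset.mem_union_right _
    (Finset.mem_image_of_mem _ (Polynomial.mem_support_iff.2 hi)))
  refine ⟨c⁻¹, P, R', inv_ne_zero hc0, hP, hR', ?_⟩
  have hone : ∀ (G : R[X]) (g : K[X]) (i : ℕ), G.map (algebraMap R K) = C c⁻¹ * g → g.coeff i = c →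
      IsUnit (G.coeff i) := by
    intro G g i hG hi
    have h1 := congrArg (fun B => B.coeff i) hG
    simp only [coeff_map, coeff_C_mul, hi, inv_mul_cancel₀ hc0] at h1
    have : G.coeff i = 1 := IsFractionRing.injective R K (by rw [h1, map_one])
    rw [this]
    exact isUnit_one
  rcases Finset.mem_union.1 hcS with h | h
  · obtain ⟨i, -, hi⟩ := Finset.mem_image.1 h
    exact Or.inl ⟨i, hone P p i hP hi⟩
  · obtain ⟨i, -, hi⟩ := Finset.mem_image.1 h
    exact Or.inr ⟨i, hone R' r i hR' hi⟩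

theorem exists_frac {R K : Type} [CommRing R] [IsDomain R] [IsDiscreteValuationRing R] [Field K]
    [Algebra R K] [IsFractionRing R K] (y : LaurentSeries K) (hy : y ∈ Fermat.Agent.Mod.FK K 1) :
    ∃ P R' : R[X], ((∃ i, IsUnit (P.coeff i)) ∨ ∃ i, IsUnit (R'.coeff i)) ∧
      y * evR R K (jqModC K)⁻¹ R' = evR R K (jqModC K)⁻¹ P := by
  obtain ⟨p, r, hpr⟩ := (IntermediateField.mem_adjoin_simple_iff K y).1 (rf_mem_adjoin_inv hy)
  by_cases h0 : aeval (jqModC K)⁻¹ r = 0
  · refine ⟨0, 1, Or.inr ⟨0, by simp⟩, ?_⟩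
    rw [hpr, h0, div_zero, zero_mul, map_zero]
  · have hr : r ≠ 0 := by
      rintro rfl
      exact h0 (map_zero _)
    obtain ⟨c, P, R', hc, hP, hR', hprim⟩ := rf_scale (R := R) p r hr
    refine ⟨P, R', hprim, ?_⟩
    rw [rf_evR_eq, rf_evR_eq, hP, hR', map_mul, map_mul, hpr]
    generalize aeval (jqModC K)⁻¹ r = a at h0
    generalize aeval (jqModC K)⁻¹ p = b
    generalize aeval (jqModC K)⁻¹ (C c) = d
    field_simp

end Fermat.Agent.S36.Mid
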