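import Fermat.Agent.S34.V2.Gauss
import Fermat.Agent.S18.AT.InO
import Fermat.Agent.S18.AT.Val

set_option autoImplicit false
set_option linter.unusedSectionVars false

/-!
# S36 / Mid / RatRed : reduction and cancellation   (task MID-Rat-Red;  steps (4)-(6) of `Mid/Rat.lean`)

Everything is done in `R[[X]]` and `κ[[X]]`: `s = 1/j = cR (σ)`, `σ = X * (jNum)⁻¹ ∈ R[[X]]`.
-/

noncomputable section

namespace Fermat.Agent.S36.Mid

open ModularCurve Polynomial IntermediateField Fermat.Agent.S18 Fermat.Agent.S18.V Fermat.Agent.S34.V2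

section gen

variable (A : Type) [CommRing A]

/-- `1/j` as a power series. -/
def sigS : PowerSeries A :=
  PowerSeries.X * PowerSeries.invOfUnit (jNum.map (Int.castRingHom A)) 1

theorem rr_jNum_mul : (jNum.map (Int.castRingHom A)) *
    PowerSeries.invOfUnit (jNum.map (Int.castRingHom A)) 1 = 1 := by
  apply PowerSeries.mul_invOfUnit
  rw [← PowerSeries.coeff_zero_eq_constantCoeff_apply, PowerSeries.coeff_map,
    PowerSeries.coeff_zero_eq_constantCoeff_apply, constantCoeff_jNum, map_one, Units.val_one]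

theorem sigS_mul : HahnSeries.ofPowerSeries ℤ A (sigS A) * jqModC A = 1 := by
  rw [sigS, jqModC, map_mul, HahnSeries.ofPowerSeries_X]
  have e : HahnSeries.single (1 : ℤ) (1 : A) *
      HahnSeries.ofPowerSeries ℤ A (PowerSeries.invOfUnit (jNum.map (Int.castRingHom A)) 1) *
      (HahnSeries.single (-1 : ℤ) 1 * HahnSeries.ofPowerSeries ℤ A (jNum.map (Int.castRingHom A))) =
      (HahnSeries.single (1 : ℤ) (1 : A) * HahnSeries.single (-1 : ℤ) 1) *
      HahnSeries.ofPowerSeries ℤ A ((jNum.map (Int.castRingHom A)) *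
        PowerSeries.invOfUnit (jNum.map (Int.castRingHom A)) 1) := by
    rw [map_mul]; ring
  rw [e, rr_jNum_mul, (HahnSeries.ofPowerSeries ℤ A).map_one, mul_one,
    HahnSeries.single_mul_single]
  simp

/-- evaluation of a polynomial at `σ`. -/
def evS : A[X] →+* PowerSeries A := eval₂RingHom (PowerSeries.C) (sigS A)

theorem constantCoeff_evS (P : A[X]) : PowerSeries.constantCoeff (evS A P) = P.coeff 0 := by
  rw [evS, coe_eval₂RingHom, hom_eval₂]
  have h1 : (PowerSeries.constantCoeff (R := A)).comp PowerSeries.C = RingHom.id A := by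
    ext r; simp
  have h2 : PowerSeries.constantCoeff (sigS A) = 0 := by
    rw [sigS, map_mul, PowerSeries.constantCoeff_X, zero_mul]
  rw [h1, h2, coeff_zero_eq_eval_zero]
  rfl

variable {A} in
theorem map_sigS {B : Type} [CommRing B] (f : A →+* B) : PowerSeries.map f (sigS A) = sigS B := by
  have h1 : PowerSeries.map f (jNum.map (Int.castRingHom A)) = jNum.map (Int.castRingHom B) := by
    ext n
    simp
  have h2 := congrArg (PowerSeries.map f) (rr_jNum_mul A)
  rw [map_mul, h1, map_one] at h2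
  have h3 : PowerSeries.map f (PowerSeries.invOfUnit (jNum.map (Int.castRingHom A)) 1) =
      PowerSeries.invOfUnit (jNum.map (Int.castRingHom B)) 1 := by
    have h4 := rr_jNum_mul B
    calc PowerSeries.map f (PowerSeries.invOfUnit (jNum.map (Int.castRingHom A)) 1)
        = PowerSeries.map f (PowerSeries.invOfUnit (jNum.map (Int.castRingHom A)) 1) *
          ((jNum.map (Int.castRingHom B)) *
            PowerSeries.invOfUnit (jNum.map (Int.castRingHom B)) 1) := by rw [h4, mul_one]
      _ = ((jNum.map (Int.castRingHom B)) *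
            PowerSeries.map f (PowerSeries.invOfUnit (jNum.map (Int.castRingHom A)) 1)) *
            PowerSeries.invOfUnit (jNum.map (Int.castRingHom B)) 1 := by ring
      _ = _ := by rw [h2, one_mul]
  rw [sigS, map_mul, PowerSeries.map_X, h3, sigS]

variable {A} in
theorem map_evS {B : Type} [CommRing B] (f : A →+* B) (P : A[X]) :
    PowerSeries.map f (evS A P) = evS B (P.map f) := by
  rw [evS, evS, coe_eval₂RingHom, coe_eval₂RingHom, hom_eval₂, eval₂_map, map_sigS]
  congr 1
  ext r
  simp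

end gen

section field

variable (k : Type) [Field k]

theorem rr_exists_factor {A : k[X]} (hA : A ≠ 0) :
    ∃ (a : ℕ) (A₁ : k[X]), A = X ^ a * A₁ ∧ A₁.coeff 0 ≠ 0 := by
  obtain ⟨B, hB, hnd⟩ := exists_eq_pow_rootMultiplicity_mul_and_not_dvd A hA 0
  rw [C_0, sub_zero] at hB hnd
  exact ⟨_, B, hB, fun h => hnd (X_dvd_iff.2 h)⟩

theorem rr_isUnit_evS {A : k[X]} (hA : A.coeff 0 ≠ 0) : IsUnit (evS k A) := by
  rw [PowerSeries.isUnit_iff_constantCoeff, constantCoeff_evS]
  exact isUnit_iff_ne_zero.2 hA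

theorem rr_order_sigS : (sigS k).order = 1 := by
  have hu : IsUnit (PowerSeries.invOfUnit (jNum.map (Int.castRingHom k)) 1) :=
    IsUnit.of_mul_eq_one _ (by rw [mul_comm]; exact rr_jNum_mul k)
  rw [sigS, PowerSeries.order_mul, PowerSeries.order_X, PowerSeries.order_zero_of_unit hu, add_zero]

theorem rr_sigS_ne_zero : sigS k ≠ 0 := by
  intro h
  have := rr_order_sigS k
  rw [h, PowerSeries.order_zero] at this
  exact absurd this (by simp)

theorem rr_evS_factor (a : ℕ) (A₁ : k[X]) : evS k (X ^ a * A₁) = sigS k ^ a * evS k A₁ := by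
  rw [map_mul, map_pow]
  congr 2
  simp [evS]

/-- cancellation. -/
theorem rr_cancel {P R' : k[X]} (hne : P ≠ 0 ∨ R' ≠ 0) {u : PowerSeries k} (hu : IsUnit u)
    (h : evS k R' * u = evS k P) :
    ∃ P₁ R₁ : k[X], P₁.coeff 0 ≠ 0 ∧ R₁.coeff 0 ≠ 0 ∧ evS k R₁ * u = evS k P₁ := by
  have hev : ∀ A : k[X], A ≠ 0 → evS k A ≠ 0 := by
    intro A hA
    obtain ⟨a, A₁, rfl, hA₁⟩ := rr_exists_factor k hA
    rw [rr_evS_factor]
    exact mul_ne_zero (pow_ne_zero _ (rr_sigS_ne_zero k)) (rr_isUnit_evS k hA₁).ne_zero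
  have hP : P ≠ 0 := by
    rintro rfl
    rw [map_zero] at h
    rcases hne with h1 | h1
    · exact h1 rfl
    · exact (mul_ne_zero (hev _ h1) hu.ne_zero) h
  have hR : R' ≠ 0 := by
    rintro rfl
    rw [map_zero, zero_mul] at h
    exact hev _ hP h.symm
  obtain ⟨b, P₁, rfl, hP₁⟩ := rr_exists_factor k hP
  obtain ⟨a, R₁, rfl, hR₁⟩ := rr_exists_factor k hR
  rw [rr_evS_factor, rr_evS_factor] at h
  have hab : a = b := by
    have h1 := congrArg PowerSeries.order h
    rw [PowerSeries.order_mul, PowerSeries.order_mul, PowerSeries.order_mul, PowerSeries.order_pow,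
      PowerSeries.order_pow, rr_order_sigS, PowerSeries.order_zero_of_unit hu,
      PowerSeries.order_zero_of_unit (rr_isUnit_evS k hR₁),
      PowerSeries.order_zero_of_unit (rr_isUnit_evS k hP₁)] at h1
    simpa using h1
  subst hab
  refine ⟨P₁, R₁, hP₁, hR₁, ?_⟩
  rw [mul_assoc] at h
  exact mul_left_cancel₀ (pow_ne_zero _ (rr_sigS_ne_zero k)) h

end field

section main

variable {R K : Type} [CommRing R] [IsDomain R] [IsDiscreteValuationRing R] [Field K]
  [Algebra R K] [IsFractionRing R K]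

variable (R K) in
/-- `R[[X]] → K((Q))`. -/
def toL : PowerSeries R →+* LaurentSeries K := (cR R K).comp (HahnSeries.ofPowerSeries ℤ R)

theorem toL_sigS : toL R K (sigS R) = (jqModC K)⁻¹ := by
  apply eq_inv_of_mul_eq_one_left
  have := congrArg (cR R K) (sigS_mul R)
  rw [map_mul, map_one, coeffMap_jqModC] at this
  exact this

theorem toL_evS (P : R[X]) : toL R K (evS R P) = evR R K (jqModC K)⁻¹ P := by
  have h : (toL R K).comp (evS R) = evR R K (jqModC K)⁻¹ := by
    apply Polynomial.ringHom_ext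
    · intro r
      have h1 : evS R (C r) = PowerSeries.C r := by simp [evS]
      rw [RingHom.comp_apply, h1, evR_C, toL, RingHom.comp_apply, HahnSeries.ofPowerSeries_C]
      change coeffMap (algebraMap R K) (HahnSeries.C r) = algebraMap K _ (algebraMap R K r)
      rw [algebraMap_laurentSeries_eq_single]
      exact coeffMap_single _ _ _
    · have h1 : evS R X = sigS R := by simp [evS]
      rw [RingHom.comp_apply, h1, evR_X, toL_sigS]
  exact congrFun (congrArg DFunLike.coe h) P

theorem toL_mem_nonunits_iff (W : PowerSeries R) : toL R K W ∈ (gaussL R K).nonunits ↔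
    PowerSeries.map (IsLocalRing.residue R) W = 0 := by
  rw [toL, RingHom.comp_apply, cR_mem_nonunits_iff]
  constructor
  · intro h
    ext n
    rw [PowerSeries.coeff_map, map_zero, IsLocalRing.residue_eq_zero_iff,
      IsLocalRing.mem_maximalIdeal, mem_nonunits_iff]
    have := h (n : ℤ)
    rwa [HahnSeries.ofPowerSeries_apply_coeff] at this
  · intro h n
    have hc := PowerSeries.coeff_coe W n
    change (HahnSeries.ofPowerSeries ℤ R W).coeff n = _ at hc
    rw [hc]
    split_ifs with hn
    · exact not_isUnit_zero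
    · have := congrArg (PowerSeries.coeff n.natAbs) h
      rwa [PowerSeries.coeff_map, map_zero, IsLocalRing.residue_eq_zero_iff,
        IsLocalRing.mem_maximalIdeal, mem_nonunits_iff] at this

theorem rat_of_frac (U₀ : LaurentSeries R) (hneg : ∀ n < 0, U₀.coeff n = 0)
    (h0 : IsUnit (U₀.coeff 0)) (y : LaurentSeries K)
    (hy : cR R K U₀ - y ∈ (gaussL R K).nonunits) (P R' : R[X])
    (hprim : (∃ i, IsUnit (P.coeff i)) ∨ ∃ i, IsUnit (R'.coeff i))
    (hfrac : y * evR R K (jqModC K)⁻¹ R' = evR R K (jqModC K)⁻¹ P) :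
    ∃ P₁ R₁ : R[X], IsUnit (P₁.coeff 0) ∧ IsUnit (R₁.coeff 0) ∧
      evR R K (jqModC K)⁻¹ R₁ * cR R K U₀ - evR R K (jqModC K)⁻¹ P₁ ∈ (gaussL R K).nonunits := by
  set res := IsLocalRing.residue R with hres
  -- `U₀` as a power series
  set u₀ : PowerSeries R := PowerSeries.mk fun n => U₀.coeff n with hu₀
  have hU : HahnSeries.ofPowerSeries ℤ R u₀ = U₀ := by
    ext i
    have := PowerSeries.coeff_coe u₀ i
    refine this.trans ?_
    split_ifs with hi
    · exact (hneg i hi).symm
    · rw [hu₀, PowerSeries.coeff_mk]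
      congr 1
      exact Int.natAbs_of_nonneg (not_lt.1 hi)
  have hUL : toL R K u₀ = cR R K U₀ := by rw [toL, RingHom.comp_apply, hU]
  have hubar : IsUnit (PowerSeries.map res u₀) := by
    rw [PowerSeries.isUnit_iff_constantCoeff, ← PowerSeries.coeff_zero_eq_constantCoeff_apply,
      PowerSeries.coeff_map, hu₀, PowerSeries.coeff_mk]
    exact h0.map res
  -- the congruence
  have h1 : toL R K (evS R R' * u₀ - evS R P) ∈ (gaussL R K).nonunits := by
    rw [map_sub, map_mul, toL_evS, toL_evS, hUL, ← hfrac]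
    have e : evR R K (jqModC K)⁻¹ R' * cR R K U₀ - y * evR R K (jqModC K)⁻¹ R' =
        evR R K (jqModC K)⁻¹ R' * (cR R K U₀ - y) := by ring
    rw [e, ← toL_evS]
    exact mul_mem_nonunits _ (cR_mem_gaussL _) hy
  rw [toL_mem_nonunits_iff, map_sub, map_mul, map_evS, map_evS, sub_eq_zero] at h1
  have hne : P.map res ≠ 0 ∨ R'.map res ≠ 0 := by
    have key : ∀ A : R[X], (∃ i, IsUnit (A.coeff i)) → A.map res ≠ 0 := by
      rintro A ⟨i, hi⟩ hA
      have := congrArg (fun B => B.coeff i) hA
      simp only [coeff_map, coeff_zero] at this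
      exact (hi.map res).ne_zero this
    exact hprim.imp (key P) (key R')
  obtain ⟨Pb, Rb, hPb, hRb, hb⟩ := rr_cancel _ hne hubar h1
  obtain ⟨P₁, rfl⟩ := Polynomial.map_surjective res IsLocalRing.residue_surjective Pb
  obtain ⟨R₁, rfl⟩ := Polynomial.map_surjective res IsLocalRing.residue_surjective Rb
  have hunit : ∀ r : R, res r ≠ 0 → IsUnit r := by
    intro r hr
    by_contra hnu
    exact hr ((IsLocalRing.residue_eq_zero_iff r).2 ((IsLocalRing.mem_maximalIdeal r).2 hnu))
  refine ⟨P₁, R₁, hunit _ (by rwa [coeff_map] at hPb), hunit _ (by rwa [coeff_map] at hRb), ?_⟩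
  rw [← toL_evS, ← toL_evS, ← hUL, ← map_mul, ← map_sub, toL_mem_nonunits_iff, map_sub, map_mul,
    map_evS, map_evS, hb, sub_self]

end main

end Fermat.Agent.S36.Mid
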