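import Fermat.Agent.S36.Mid.RatTwo
import Fermat.Agent.S36.Mid.RatFrac
import Fermat.Agent.S36.Mid.RatRed

set_option autoImplicit false
set_option linter.unusedSectionVars false

/-!
# S36 / Mid / Rat : a function of level `q` whose expansion is a unit power series is, modulo `𝔪_∞`, a rational function of `1/j` which is a unit at `1/j = 0`
(task MID-Rat;  used for LOCGEN (e) = `ChartData.mid_cusp`, board #483 (3))

`R` a DVR, `K = Frac R` of characteristic `0`, `q` a prime which is not a unit of `R`, `s = 1/j ∈ K((Q))`.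
`U₀ ∈ R((Q))` of order `0` with unit constant coefficient, `U = cR U₀ ∈ F_{q,K}`.   CLAIM: there are `P₁, R₁ ∈ R[X]` with unit constant coefficients and
`R₁(s) U - P₁(s) ∈ 𝔪` (Gauss valuation).

## SKETCH
(1) `T' : Two R K q ↥(FK K 1) ↥(FK K q)` := `V2.instTwo` with `E₁ = FK K 1`, `F₁ = FK K q` (or `FK K (1 * q)` and `one_mul`), `h := Mod.FK_le 1 q`, `hQF := InQF.of_mem_FK`,
    `w := Mod.wQ K q q` (`Mod.out_W_invol`, `Mod.out_W_low` with `N = q`: `q ∣ q`, `¬ q^2 ∣ q`, `q / q = 1`), `hs := Mod.degLE ι 1 q hq (by q ∤ 1)`, `x₀ := jqModC R`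
    (`cR R K (jqModC R) = jqModC K ∈ FK K 1`: `Mod.jS_mem`, `Mod.jS_one`; order `-1`, leading coefficient `1`: as for `xK` in `S18/XSer.lean`: `S18.jq_eq`, `S18.order_aux`), `hfrob := V2.frob_congr_int q hq hqR (jqModC ℤ)`.
    See `S34/V2/Conc.lean` (`Ctx.two`) for the same construction at level `M`.
(2) `T'.res_deg_one` (`S34/V2/TwoCount.lean`) applied to `⟨U, hU⟩ ∈ T'.Vi` (`cR_mem_gaussL`-type lemma): `y ∈ FK K 1`, `y ∈ gaussL`, `U - y ∈ 𝔪`.
(3) `FK K 1 = K⟮j⟯ = K⟮s⟯` (`Mod.FK_eq_adjoin`, `IntermediateField.mem_adjoin_simple_iff`): `y * aeval s r = aeval s p`, `p r : K[X]`, `r ≠ 0`.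
    Divide `p, r` by the coefficient of largest absolute value (`R` is a valuation ring): `P R' : R[X]`, one coefficient of `P` or of `R'` is a unit, `y * evR s R' = evR s P`.
(4) `s₀ : LaurentSeries R` with `cR s₀ = s` (`s₀ = Q * (jNum)⁻¹`; `jNum` has constant coefficient `1`).  `W₀ := R'(s₀) U₀ - P(s₀)`: `cR W₀ = R'(s) (U - y) ∈ 𝔪`, so `Gauss.redR R W₀ = 0` (`cR_mem_nonunits_iff`, `Gauss.redR_eq_zero_iff`):
    `R̄(s̄) Ū = P̄(s̄)` in `κ((Q))`, `(P̄, R̄) ≠ (0, 0)`.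
(5) for `0 ≠ A ∈ κ[X]`: `A = X^a A₁`, `A₁(0) ≠ 0`, and `A₁(s̄)` has order `0` (constant coefficient `A₁(0)`), `s̄` has order `1`.  So `R̄ ≠ 0 ≠ P̄`, `a = b` by comparing orders (`Ū` has order `0`), and `R̄₁(s̄) Ū = P̄₁(s̄)`.
(6) lift `P̄₁, R̄₁` to `P₁, R₁ : R[X]` (`Polynomial.map_surjective`, `IsLocalRing.residue_surjective`); constant coefficients are units because their residues are `≠ 0`;
    `redR (R₁(s₀) U₀ - P₁(s₀)) = 0` gives the claim.
-/

noncomputable section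

namespace Fermat.Agent.S36.Mid

open ModularCurve Polynomial IntermediateField Fermat.Agent.S18 Fermat.Agent.S18.V Fermat.Agent.S34.V2

theorem exists_rat {R K : Type} [CommRing R] [IsDomain R] [IsDiscreteValuationRing R] [Field K]
    [CharZero K] [Algebra R K] [IsFractionRing R K] (ι : K →+* S24.Kb) (q : ℕ) [NeZero q]
    (hq : q.Prime) (hqR : ¬ IsUnit (q : R)) (U₀ : LaurentSeries R) (hneg : ∀ n < 0, U₀.coeff n = 0)
    (h0 : IsUnit (U₀.coeff 0)) (hU : cR R K U₀ ∈ Fermat.Agent.Mod.FK K q) :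
    ∃ P₁ R₁ : R[X], IsUnit (P₁.coeff 0) ∧ IsUnit (R₁.coeff 0) ∧
      evR R K (jqModC K)⁻¹ R₁ * cR R K U₀ - evR R K (jqModC K)⁻¹ P₁ ∈ (gaussL R K).nonunits := by
  obtain ⟨y, hy1, -, hy⟩ := exists_level_one (R := R) ι q hq hqR (cR R K U₀) hU (cR_mem_gaussL U₀)
  obtain ⟨P, R', hprim, hfrac⟩ := exists_frac (R := R) y hy1
  exact rat_of_frac U₀ hneg h0 y hy P R' hprim hfrac

end Fermat.Agent.S36.Mid
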