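import Fermat.Agent.S34.Mod.Main
import Fermat.Agent.S34.V2.Gauss

set_option autoImplicit false
set_option linter.unusedSectionVars false

/-!
# S36 / Mid / U : the series `u = j^(q-1) Δ(Q^q)/Δ(Q) = 1 + O(Q)`   (task MID-U)

## SKETCH
`jqModC A = single (-1) 1 * ofPowerSeries (jNum.map _)` (definition of `jqModC`), `S28.dInv A = single (-1) 1 * ofPowerSeries (dedekindEtaUnitInv.map _)`, `S28.dS A = single 1 1 * ofPowerSeries (dedekindEtaUnit.map _)`,
`qExpand A q (single 1 1) = single q 1` (`qExpand_single`), `qExpand A q (ofPowerSeries p) = ofPowerSeries (expand ..)` (see `GES/FrobSeries.lean : frobSeries_aux`, or avoid it: it is enough to know that its coefficients of negative index vanish and the coefficient `0` is `1`).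
So `uS A q = single (-(q-1) - 1 + q) 1 * ofPowerSeries (W) = ofPowerSeries W`, `W` with constant coefficient `1`.
ALTERNATIVE (shorter when `A` is a domain; but we want any `A`, so reduce to `A = ℤ` by `coeffMap`: `uS A q = coeffMap (Int.castRingHom A) (uS ℤ q)`): over `ℤ` use `HahnSeries.order_mul`, `HahnSeries.leadingCoeff_mul`, `order_pow`, orders `-1, -1, q` and leading coefficients `1`
(`S28.dS_coeff_one`, `S28.dS_coeff_of_lt`, `S28.dInv_coeff_neg_one`, `S28.dInv_coeff_of_lt`, `S28.orderTop_eq_of_coeff`, `S18.order_aux`), `HahnSeries.coeff_eq_zero_of_lt_order`.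
`uS_mem`: `Mod.jS_mem`, `Mod.jS_one`, `Mod.DKinv_mem K q q hq dvd_rfl`, `pow_mem`, `mul_mem`; `cR R K (uS R q) = uS K q` by `map_mul`, `map_pow`, `coeffMap_jqModC`, `coeffMap_DKinv`.
-/

noncomputable section

namespace Fermat.Agent.S36.Mid

open ModularCurve Polynomial Fermat.Agent.S18 Fermat.Agent.S18.V Fermat.Agent.Mod

/-- `u = j^(q-1) Δ(Q^q)/Δ(Q)`. -/
def uS (A : Type) [CommRing A] (q : ℕ) [NeZero q] : LaurentSeries A := jqModC A ^ (q - 1) * DKinv A q

theorem coeffMap_uS {A B : Type} [CommRing A] [CommRing B] (φ : A →+* B) (q : ℕ) [NeZero q] :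
    coeffMap φ (uS A q) = uS B q := by
  rw [uS, uS, map_mul, map_pow, coeffMap_jqModC, coeffMap_DKinv]

/-- `ψ = Q^m (1 + ...)`. -/
def IsM (ψ : LaurentSeries ℤ) (m : ℤ) : Prop := ψ.order = m ∧ ψ.leadingCoeff = 1

theorem IsM.ne_zero {ψ : LaurentSeries ℤ} {m : ℤ} (h : IsM ψ m) : ψ ≠ 0 := by
  intro h0
  have := h.2
  rw [h0, HahnSeries.leadingCoeff_zero] at this
  exact zero_ne_one this

theorem IsM.mul {ψ χ : LaurentSeries ℤ} {m n : ℤ} (h : IsM ψ m) (h' : IsM χ n) :
    IsM (ψ * χ) (m + n) :=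
  ⟨by rw [HahnSeries.order_mul h.ne_zero h'.ne_zero, h.1, h'.1],
    by rw [HahnSeries.leadingCoeff_mul, h.2, h'.2, one_mul]⟩

theorem isM_one : IsM 1 0 := ⟨HahnSeries.order_one, HahnSeries.leadingCoeff_one⟩

theorem IsM.pow {ψ : LaurentSeries ℤ} {m : ℤ} (h : IsM ψ m) (k : ℕ) : IsM (ψ ^ k) (k * m) := by
  induction k with
  | zero => simpa using isM_one
  | succ k ih =>
    rw [pow_succ]
    have := ih.mul h
    have e : ((k + 1 : ℕ) : ℤ) * m = k * m + m := by push_cast; ring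
    rw [e]
    exact this

theorem isM_of_coeff {ψ : LaurentSeries ℤ} {m : ℤ} (h1 : ψ.coeff m = 1)
    (h2 : ∀ k < m, ψ.coeff k = 0) : IsM ψ m := by
  have h0 : ψ ≠ 0 := by
    intro h
    rw [h] at h1
    simp at h1
  have hT := S28.orderTop_eq_of_coeff ℤ h1 h2
  have hord : ψ.order = m := by
    have := HahnSeries.order_eq_orderTop_of_ne_zero h0
    rw [hT] at this
    exact_mod_cast this
  exact ⟨hord, by rw [HahnSeries.leadingCoeff_eq, hord, h1]⟩

theorem isM_uS (q : ℕ) [NeZero q] : IsM (uS ℤ q) 0 := by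
  have hq : 1 ≤ q := Nat.one_le_iff_ne_zero.2 (NeZero.ne q)
  have hj : IsM (jqModC ℤ) (-1) := by
    rw [XSer.jq_eq]
    exact XSer.order_aux ℤ jNum constantCoeff_jNum
  have hd : IsM (S28.dInv ℤ) (-1) :=
    isM_of_coeff (S28.dInv_coeff_neg_one ℤ) fun k hk => S28.dInv_coeff_of_lt ℤ hk
  have hD : IsM (qExpand ℤ q (S28.dS ℤ)) q := by
    apply isM_of_coeff
    · have := qExpand_coeff_mul (R := ℤ) (N := q) (S28.dS ℤ) 1
      rw [mul_one] at this
      rw [this, S28.dS_coeff_one]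
    · intro k hk
      by_cases hdvd : (q : ℤ) ∣ k
      · obtain ⟨c, rfl⟩ := hdvd
        rw [qExpand_coeff_mul]
        apply S28.dS_coeff_of_lt
        by_contra hc
        have hc1 : 1 ≤ c := by omega
        have : (q : ℤ) * 1 ≤ q * c := mul_le_mul_of_nonneg_left hc1 (by positivity)
        omega
      · exact qExpand_coeff_of_not_dvd q _ hdvd
  have := (hj.pow (q - 1)).mul (hd.mul hD)
  have e : ((q - 1 : ℕ) : ℤ) * -1 + (-1 + q) = 0 := by
    rw [Nat.cast_sub hq]; push_cast; ring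
  rw [e] at this
  exact this

theorem uS_coeff_neg (A : Type) [CommRing A] (q : ℕ) [NeZero q] (n : ℤ) (hn : n < 0) :
    (uS A q).coeff n = 0 := by
  rw [← coeffMap_uS (Int.castRingHom A) q, coeffMap_coeff,
    HahnSeries.coeff_eq_zero_of_lt_order (by rw [(isM_uS q).1]; exact hn), map_zero]

theorem uS_coeff_zero (A : Type) [CommRing A] (q : ℕ) [NeZero q] : (uS A q).coeff 0 = 1 := by
  have h := isM_uS q
  have h1 : (uS ℤ q).coeff 0 = 1 := by
    have := h.2
    rwa [HahnSeries.leadingCoeff_eq, h.1] at this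
  rw [← coeffMap_uS (Int.castRingHom A) q, coeffMap_coeff, h1, map_one]

theorem uS_mem (K : Type) [Field K] [CharZero K] (q : ℕ) [NeZero q] (hq : q.Prime) :
    uS K q ∈ Fermat.Agent.Mod.FK K q := by
  have h1 : jqModC K ∈ Fermat.Agent.Mod.FK K q := by
    rw [← Mod.jS_one]
    exact Mod.jS_mem K (one_dvd q)
  exact mul_mem (pow_mem h1 _) (Mod.DKinv_mem K q q hq dvd_rfl)

end Fermat.Agent.S36.Mid
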