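import Fermat.Agent.S36.Mid.Ser
import Fermat.Agent.S36.Mid.Int
import Fermat.Agent.S36.Mid.U
import Fermat.Agent.S36.Mid.Rat

set_option autoImplicit false
set_option linter.unusedSectionVars false

/-!
# S36 / Mid / Main : LOCGEN (d), (e) for `T : V3.Three`

INPUT: `JE x3E x2E : E` (level `M`), `d₁ : F1` (level `qM`) with expansions `j`, `x₃`, `x₂`, `Δ(Q^q)/Δ(Q)` (`MidIn`), the three `θ`-identities over the residue field of `R'` (`ThetaIds`, chapter TH),
`ι : K →+* ℚ̄` (only used to bound a degree at level one).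
OUTPUT: `mid_ord`, `mid_cusp` = the fields of the same name of `Inst.ChartData` for `J = T.ι₀ JE`, `V = T.Vf`, `ϖ = q`.
-/

noncomputable section

namespace Fermat.Agent.S36.Mid

open ModularCurve Polynomial Fermat.Agent.S18 Fermat.Agent.S18.V Fermat.Agent.S34 Fermat.Agent.S34.V2
open Fermat.Agent.S36.V3 Fermat.Agent.S36.LG Fermat.Agent.S36.Inst Fermat.Agent.Mod

theorem isUnit_prime_of_ne {A : Type} [CommRing A] [IsLocalRing A] {p q : ℕ} (hp : p.Prime)
    (hq : q.Prime) (hpq : p ≠ q) (hqA : ¬ IsUnit (q : A)) : IsUnit (p : A) := by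
  by_contra h
  have hc : IsCoprime (p : ℤ) (q : ℤ) :=
    Nat.isCoprime_iff_coprime.2 ((Nat.coprime_primes hp hq).2 hpq)
  obtain ⟨a, b, hab⟩ := hc
  have h1 : (a : A) * (p : A) + (b : A) * (q : A) = 1 := by
    have := congrArg (Int.cast : ℤ → A) hab
    push_cast at this
    exact this
  have h2 : (a : A) * p ∈ nonunits A := fun hu => h (isUnit_of_mul_isUnit_right hu)
  have h3 : (b : A) * q ∈ nonunits A := fun hu => hqA (isUnit_of_mul_isUnit_right hu)
  have := IsLocalRing.nonunits_add h2 h3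
  rw [h1] at this
  exact this isUnit_one

variable {R K : Type} [CommRing R] [IsDomain R] [IsDiscreteValuationRing R] [Field K] [CharZero K]
  [Algebra R K] [IsFractionRing R K] {R' K' : Type} [CommRing R'] [IsDomain R'] [IsLocalRing R']
  [Field K'] [Algebra R' K'] [IsFractionRing R' K'] {q : ℕ} [NeZero q] {E F1 F : Type}
  [Field E] [Field F1] [Field F] [Algebra K E] [Algebra K F1] [Algebra K F] [Algebra E F1]
  [Algebra F1 F] [Algebra E F] [IsScalarTower K E F1] [IsScalarTower K F1 F] [IsScalarTower E F1 F]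
  [IsScalarTower K E F] {T1 : Two R K q E F1}

/-- the four modular functions. -/
structure MidIn (T1 : Two R K q E F1) (JE x3E x2E : E) (d₁ : F1) : Prop where
  hJ : T1.jE JE = jqModC K
  hx2 : q ≠ 2 → T1.jE x2E = xK K line2
  hx3 : q ≠ 2 → q ≠ 3 → T1.jE x3E = xK K line3
  hd : T1.jF d₁ = DKinv K q

variable (T : Three R' K' F T1) {JE x3E x2E : E} {d₁ : F1}

include T in
theorem charP_res : CharP (IsLocalRing.ResidueField R') q := by
  rw [CharP.charP_iff_prime_eq_zero T1.hq]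
  have h1 : IsLocalRing.residue R' (q : R') = 0 :=
    (IsLocalRing.residue_eq_zero_iff _).mpr
      ((IsLocalRing.mem_maximalIdeal _).mpr T.basic_not_isUnit_q)
  rwa [map_natCast] at h1

theorem jF_α (z : F1) : T.jF (algebraMap F1 F z) = T1.jF z := T.compat z

theorem rel₂_E (h : T1.jE x2E = xK K line2) (hJ : T1.jE JE = jqModC K) :
    (x2E + 256) ^ 3 = JE * x2E ^ 2 := by
  apply (T1.jE : E →+* LaurentSeries K).injective
  have := xK_rel K line2 (Or.inl rfl)
  simp only [line2, map_pow, map_add, aeval_X, map_ofNat] at this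
  simp only [RingHom.coe_coe, map_pow, map_add, map_mul, map_ofNat, h, hJ]
  exact this

theorem rel₃_E (h : T1.jE x3E = xK K line3) (hJ : T1.jE JE = jqModC K) :
    (x3E + 27) * (x3E + 243) ^ 3 = JE * x3E ^ 3 := by
  apply (T1.jE : E →+* LaurentSeries K).injective
  have := xK_rel K line3 (Or.inr rfl)
  simp only [line3, map_pow, map_add, map_mul, aeval_X, map_ofNat] at this
  simp only [RingHom.coe_coe, map_pow, map_add, map_mul, map_ofNat, h, hJ]
  exact this

/-- the data of LOCGEN (d). -/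
theorem ordData (H : ThetaIds (IsLocalRing.ResidueField R')) (hq2 : q ≠ 2)
    (I : MidIn T1 JE x3E x2E d₁) :
    OrdData (K := K) (q : R) q T.Vf (T.ι₀ JE) (T.ι₀ x3E) (T.ι₂ x3E) (T.ι₀ x2E) (T.ι₂ x2E)
      (algebraMap F1 F d₁) := by
  have hq := T1.hq
  have : Fact q.Prime := ⟨hq⟩
  have := charP_res T
  have hd' : T1.jF d₁ = zS K (DKinv ℤ q) := by rw [I.hd, zS_DKinv]
  have hdi : T1.jF d₁⁻¹ = zS K (DK ℤ q) := by
    rw [map_inv₀, I.hd, zS_DK, DKinv_eq_inv, inv_inv]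
  have hJ' : T1.jE JE = zS K (jqModC ℤ) := by rw [I.hJ, zS_jq]
  have hd0 : d₁ ≠ 0 := by
    intro h0
    have h1 := DK_mul_DKinv K q
    rw [← I.hd, h0, map_zero, mul_zero] at h1
    exact zero_ne_one h1
  have hx2 : T1.jE x2E = zS K (xZ line2) := I.hx2 hq2
  refine
    { d_ne := (_root_.map_ne_zero _).2 hd0
      d_int := isIntegral_of_jF T (by
        rw [jF_ι₀, jF_α, I.hJ, I.hd]; exact (out_D_int K q hq).2)
      d_int' := isIntegral_of_jF T (by
        rw [← map_inv₀, jF_ι₀, jF_α, I.hJ, hdi, zS_DK]; exact (out_D_int K q hq).1)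
      d_mem := mem_mid_of_jm T (jm_α_zS T hd')
      d_mem' := by
        rw [← map_inv₀]
        exact mem_mid_of_jm T (jm_α_zS T hdi)
      two := by
        have := isUnit_prime_of_ne (A := R) Nat.prime_two hq (Ne.symm hq2) T1.hqR
        simpa using this
      rel₂ := by
        have := congrArg T.ι₀ (rel₂_E (T1 := T1) (I.hx2 hq2) I.hJ)
        simpa only [map_pow, map_add, map_mul, map_ofNat] using this
      f₂ := ordFun_of T I.hJ hx2 (by
          simp only [map_mul, map_pow, map_add, map_ofNat, jm_ι₀_zS T hx2, jm_α_zS T hd'])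
        (int_x K line2 (Or.inl rfl)) (int_xqq K line2 (Or.inl rfl) q hq) (ser_x2 q H)
      three := fun h3 => by
        have := isUnit_prime_of_ne (A := R) Nat.prime_three hq (Ne.symm h3) T1.hqR
        simpa using this
      rel₃ := fun h3 => by
        have := congrArg T.ι₀ (rel₃_E (T1 := T1) (I.hx3 hq2 h3) I.hJ)
        simpa only [map_pow, map_add, map_mul, map_ofNat] using this
      f₃ := fun h3 => by
        have hx3 : T1.jE x3E = zS K (xZ line3) := I.hx3 hq2 h3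
        exact ordFun_of T I.hJ hx3 (by
          simp only [map_mul, map_pow, map_add, map_ofNat, jm_ι₀_zS T hx3, jm_α_zS T hd'])
          (int_x K line3 (Or.inr rfl)) (int_xqq K line3 (Or.inr rfl) q hq) (ser_x3 q H)
      three' := fun h3 => by
        subst h3
        exact ⟨1, by simp⟩
      cong₃ := fun h3 => by
        subst h3
        refine mem_mid_of_red T (Z₀ := zS R' (jqModC ℤ ^ 2 * DKinv ℤ 3 - 1)) ?_ ?_
        · simp only [map_mul, map_pow, map_sub, map_one, jm_ι₀_zS T hJ', jm_α_zS T hd']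
        · rw [redR_zS]
          exact ser_three _ }

/-- **LOCGEN (d)** for `T`. -/
theorem mid_ord (H : ThetaIds (IsLocalRing.ResidueField R')) (I : MidIn T1 JE x3E x2E d₁) {t : F}
    (hV : VertFam (K := K) (q : R) t T.Vf) (n : Ideal (CInt R K t)) (hn : IsClosedPt (q : R) n)
    (hJ : InLoc n (T.ι₀ JE)) (honly : ∀ k, Centered (T.Vf k) n → k = 1) :
    MidGen (q : R) q T.Vf n := by
  by_cases hq2 : q = 2
  · subst hq2
    exact midGen_two T.hunr hV hn
  · exact (ordData T H hq2 I).midGen T.hunr hV honly hn T.ram_mid hJ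

/-! ### the cusps -/

theorem jq_inv_mem : (jqModC K)⁻¹ ∈ gaussL R K := by
  have e : jqModC K = cR R K (jqModC R) := (coeffMap_jqModC _).symm
  rw [e]
  exact inv_mem_of_notMem_nonunits _ (cR_mem_gaussL _)
    (cR_notMem_nonunits ⟨-1, by rw [coeff_jqModC_neg_one]; exact isUnit_one⟩)

theorem J_inv_mem (hJ : T1.jE JE = jqModC K) : (T.ι₀ JE)⁻¹ ∈ T.Vmid := by
  rw [← map_inv₀, T.ι₀_apply, T.map_mem_Vmid, T1.mem_VE, map_inv₀, hJ]
  exact jq_inv_mem

theorem α_mem_mid_nonunits {z : F1} (hz : T1.jF z ∈ (gaussL R K).nonunits) :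
    algebraMap F1 F z ∈ T.Vmid.nonunits := by
  rw [T.mem_Vmid_nonunits, T.jm_α, bc_mem_nonunits_iff T.ρ T.ρR T.hρ T.hloc (T1.inQF z)]
  exact hz

/-- pure algebra. -/
theorem cusp_alg {L : Type} [Field L] {J Jqq c d : L} (hJ : J ≠ 0) (e : ℕ) :
    (c * (Jqq / J - 1) ^ e) ^ 6 - (1 - 1728 * J⁻¹) ^ (3 * e) * (J ^ e * d) =
      (J⁻¹ ^ e) ^ 6 * ((c * (J - Jqq) ^ e) ^ 6 - (J ^ 4 * (J - 1728) ^ 3) ^ e * d) := by
  have h1 : (Jqq / J - 1) ^ e = (-1) ^ e * ((J - Jqq) ^ e * J⁻¹ ^ e) := by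
    rw [← mul_pow, ← mul_pow]
    congr 1
    field_simp
    ring
  have h2 : (((-1 : L)) ^ e) ^ 6 = 1 := by
    rw [← pow_mul, mul_comm, pow_mul]
    norm_num
  have h3 : (1 - 1728 * J⁻¹) ^ (3 * e) * J ^ e = (J⁻¹ ^ e) ^ 6 * (J ^ 4 * (J - 1728) ^ 3) ^ e := by
    rw [pow_mul, ← mul_pow, ← pow_mul, mul_comm e 6, pow_mul, ← mul_pow]
    congr 1
    field_simp
  rw [h1]
  have h4 : (c * ((-1) ^ e * ((J - Jqq) ^ e * J⁻¹ ^ e))) ^ 6 =
      (((-1 : L)) ^ e) ^ 6 * ((J⁻¹ ^ e) ^ 6 * (c * (J - Jqq) ^ e) ^ 6) := by ring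
  have h5 : (1 - 1728 * J⁻¹) ^ (3 * e) * (J ^ e * d) =
      ((1 - 1728 * J⁻¹) ^ (3 * e) * J ^ e) * d := by ring
  rw [h4, h2, one_mul, h5, h3]
  ring

/-- the data of LOCGEN (e). -/
theorem cuspData (H : ThetaIds (IsLocalRing.ResidueField R')) (ι : K →+* S24.Kb)
    (I : MidIn T1 JE x3E x2E d₁) :
    CuspData (K := K) (q : R) q T.Vf (T.ι₀ JE) (T.ι₂ JE)
      (T.ι₀ JE ^ (q - 1) * algebraMap F1 F d₁) := by
  have hq := T1.hq
  have : Fact q.Prime := ⟨hq⟩
  have := charP_res T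
  have hd' : T1.jF d₁ = zS K (DKinv ℤ q) := by rw [I.hd, zS_DKinv]
  have hJ' : T1.jE JE = zS K (jqModC ℤ) := by rw [I.hJ, zS_jq]
  have hJE0 : JE ≠ 0 := by
    intro h0
    have h1 := I.hJ
    rw [h0, map_zero] at h1
    exact jqModC_ne_zero_of_nontrivial K h1.symm
  have hJ0 : T.ι₀ JE ≠ 0 := (_root_.map_ne_zero _).2 hJE0
  have hsub := T.Ya_mem (mem_VE_zS hJ')
  have hinv := J_inv_mem T I.hJ
  refine ⟨?_, ?_, ?_⟩
  · have e : T.ι₂ JE / T.ι₀ JE - 1 = -((T.ι₀ JE)⁻¹ * (T.ι₀ JE - T.ι₂ JE)) := by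
      field_simp
      ring
    rw [e]
    exact neg_mem_nonunits _ (mul_mem_nonunits _ hinv hsub)
  · rw [cusp_alg hJ0]
    refine mul_mem_nonunits _ (pow_mem (pow_mem hinv _) _) ?_
    exact xi_cong T (jm_ι₀_zS T hJ') (jm_ι₂_zS T hJ')
      (Y₀ := zS R' ((jqModC ℤ ^ 4 * (jqModC ℤ - 1728) ^ 3) ^ (q - 1) * DKinv ℤ q)) (by
        simp only [map_mul, map_pow, map_sub, map_ofNat, jm_ι₀_zS T hJ', jm_α_zS T hd'])
      (by decide) (by rw [redR_th, redR_zS, redR_zS, ser_j q H])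
  · have hcU : cR R K (uS R q) = uS K q := coeffMap_uS _ q
    obtain ⟨P₁, R₁, hP, hR, h⟩ := exists_rat ι q hq T1.hqR (uS R q) (uS_coeff_neg R q)
      (by rw [uS_coeff_zero]; exact isUnit_one) (by rw [hcU]; exact uS_mem K q hq)
    refine ⟨P₁, R₁, hP, hR, ?_⟩
    set J₁ : F1 := algebraMap E F1 JE with hJ₁
    have hαJ : algebraMap F1 F J₁ = T.ι₀ JE := by
      rw [T.ι₀_apply, IsScalarTower.algebraMap_apply E F1 F]
    have hjJ : T1.jF J₁ = jqModC K := by rw [hJ₁, T1.compat, I.hJ]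
    have key := α_mem_mid_nonunits T
      (z := evR R K J₁⁻¹ R₁ * (J₁ ^ (q - 1) * d₁) - evR R K J₁⁻¹ P₁) (by
        rw [map_sub, map_mul, map_mul, map_pow, ss_algHom_evR, ss_algHom_evR, map_inv₀, hjJ, I.hd]
        rw [hcU, uS] at h
        exact h)
    have e1 : ∀ s : R[X], algebraMap F1 F (evR R K J₁⁻¹ s) = evR R K (T.ι₀ JE)⁻¹ s := by
      intro s
      have := ss_algHom_evR T.αK J₁⁻¹ s
      rw [T.αK_apply, T.αK_apply, map_inv₀, hαJ] at this
      exact this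
    rw [map_sub, map_mul, map_mul, map_pow, e1, e1, hαJ] at key
    exact key

/-- **LOCGEN (e)** for `T`. -/
theorem mid_cusp (H : ThetaIds (IsLocalRing.ResidueField R')) (ι : K →+* S24.Kb)
    (I : MidIn T1 JE x3E x2E d₁) {t : F} (hV : VertFam (K := K) (q : R) t T.Vf)
    (n : Ideal (CInt R K t)) (hn : IsClosedPt (q : R) n) (hJ : InMax n (T.ι₀ JE)⁻¹)
    (honly : ∀ k, Centered (T.Vf k) n → k = 1) (hρ : InLoc n (T.ι₂ JE / T.ι₀ JE)) :
    MidGen (q : R) q T.Vf n :=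
  (cuspData T H ι I).midGen T.hunr hV honly hn T.ram_mid hJ hρ

end Fermat.Agent.S36.Mid
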