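import Fermat.Agent.S34.V2.Gauss
import Fermat.Agent.S18.AT.Defs

set_option autoImplicit false
set_option linter.unusedSectionVars false

/-!
# S36 / Mid / RatFun : a Gauss unit `υ = r + O(Q)` congruent to a rational function of `s = Q + ..` is congruent to `P₁(s)/R₁(s)`, `P₁(0), R₁(0) ∈ Rˣ`

`R` a DVR, `K = Frac R`.  `σ υ : R[[Q]]`, `σ = u Q + ..`, `υ = r + ..`, `u, r ∈ Rˣ`.
If `y ∈ K(σ) ⊆ K((Q))` and `υ - y ∈ 𝔪_Gauss`, then there are `P₁ R₁ : R[X]` with unit constant coefficients and `υ R₁(σ) - P₁(σ) ∈ 𝔪_Gauss`.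
(Used for MID-CUSP: `σ = 1/j`, `υ = j^(q-1) Δ(Q^q)/Δ(Q)`.)
-/

noncomputable section

namespace Fermat.Agent.S36.Mid

open ModularCurve Polynomial Fermat.Agent.S18 Fermat.Agent.S18.V Fermat.Agent.S34.V2

variable {R K : Type} [CommRing R] [IsDomain R] [IsDiscreteValuationRing R] [Field K]
  [Algebra R K] [IsFractionRing R K]

/-- `R[[Q]] → K((Q))`. -/
def pK (R K : Type) [CommRing R] [Field K] [Algebra R K] : PowerSeries R →+* LaurentSeries K :=
  (cR R K).comp (HahnSeries.ofPowerSeries ℤ R)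

/-- evaluation of `P : R[X]` at a power series. -/
def evP (σ : PowerSeries R) : R[X] →+* PowerSeries R := eval₂RingHom (PowerSeries.C) σ

theorem evP_apply (σ : PowerSeries R) (P : R[X]) : evP σ P = P.eval₂ PowerSeries.C σ := rfl

theorem pK_eq (α : PowerSeries R) :
    pK R K α = cR R K (HahnSeries.ofPowerSeries ℤ R α) := rfl

theorem pK_C (r : R) : pK R K (PowerSeries.C r) = cst R K r := by
  rw [pK, RingHom.comp_apply, HahnSeries.ofPowerSeries_C, cR_C (K := K)]

theorem pK_evP (σ : PowerSeries R) (P : R[X]) :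
    pK R K (evP σ P) = P.eval₂ (cst R K) (pK R K σ) := by
  rw [evP_apply, Polynomial.hom_eval₂]
  congr 1
  exact RingHom.ext fun r => pK_C (K := K) r

theorem pK_mem (α : PowerSeries R) : pK R K α ∈ gaussL R K := cR_mem_gaussL _

theorem coeff_ofPS (α : PowerSeries R) (n : ℕ) :
    (HahnSeries.ofPowerSeries ℤ R α).coeff (n : ℤ) = PowerSeries.coeff n α := by
  simp

theorem pK_notMem_nonunits {α : PowerSeries R} {n : ℕ} (h : IsUnit (PowerSeries.coeff n α)) :
    pK R K α ∉ (gaussL R K).nonunits :=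
  cR_notMem_nonunits ⟨(n : ℤ), by rwa [coeff_ofPS]⟩

theorem not_isUnit_coeff_of_mem {α : PowerSeries R} (h : pK R K α ∈ (gaussL R K).nonunits) (n : ℕ) :
    ¬ IsUnit (PowerSeries.coeff n α) := fun hu => pK_notMem_nonunits hu h

theorem constantCoeff_evP {σ : PowerSeries R} (hσ : PowerSeries.constantCoeff σ = 0) (P : R[X]) :
    PowerSeries.constantCoeff (evP σ P) = P.coeff 0 := by
  rw [evP_apply, Polynomial.hom_eval₂, hσ, Polynomial.eval₂_at_zero]
  simp

theorem evP_split (σ : PowerSeries R) (P : R[X]) :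
    evP σ P = σ * evP σ P.divX + PowerSeries.C (P.coeff 0) := by
  conv_lhs => rw [← Polynomial.divX_mul_X_add P]
  rw [map_add, map_mul]
  simp only [evP, coe_eval₂RingHom, eval₂_X, eval₂_C]
  ring

theorem mem_or_of_mul_mem {Ω : Type*} [Field Ω] (W : ValuationSubring Ω) {a b : Ω} (ha : a ∈ W)
    (h : a * b ∈ W.nonunits) : a ∈ W.nonunits ∨ b ∈ W.nonunits := by
  by_cases ha' : a ∈ W.nonunits
  · exact Or.inl ha'
  · right
    have ha0 : a ≠ 0 := fun h0 => ha' (h0 ▸ zero_mem_nonunits W)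
    have e : b = a⁻¹ * (a * b) := by rw [← mul_assoc, inv_mul_cancel₀ ha0, one_mul]
    rw [e]
    exact mul_mem_nonunits W (inv_mem_of_notMem_nonunits W ha ha') h

/-- a polynomial with a unit coefficient, evaluated at `σ = u Q + ..`, is a Gauss unit. -/
theorem evP_notMem_nonunits {σ : PowerSeries R} (hσ : PowerSeries.constantCoeff σ = 0)
    (hσ1 : IsUnit (PowerSeries.coeff 1 σ)) :
    ∀ (d : ℕ) (P : R[X]), P.natDegree ≤ d → (∃ i, IsUnit (P.coeff i)) →
      pK R K (evP σ P) ∉ (gaussL R K).nonunits := by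
  intro d
  induction d with
  | zero =>
    intro P hd ⟨i, hi⟩
    have h0 : IsUnit (P.coeff 0) := by
      rcases Nat.eq_zero_or_pos i with rfl | hpos
      · exact hi
      · rw [Polynomial.coeff_eq_zero_of_natDegree_lt (by omega)] at hi
        exact absurd hi not_isUnit_zero
    apply pK_notMem_nonunits (n := 0)
    rw [PowerSeries.coeff_zero_eq_constantCoeff_apply, constantCoeff_evP hσ]
    exact h0
  | succ d ih =>
    intro P hd ⟨i, hi⟩
    by_cases h0 : IsUnit (P.coeff 0)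
    · apply pK_notMem_nonunits (n := 0)
      rw [PowerSeries.coeff_zero_eq_constantCoeff_apply, constantCoeff_evP hσ]
      exact h0
    · have hi0 : i ≠ 0 := by
        rintro rfl
        exact h0 hi
      obtain ⟨k, rfl⟩ := Nat.exists_eq_succ_of_ne_zero hi0
      have h1 := ih P.divX (by rw [Polynomial.natDegree_divX_eq_natDegree_tsub_one]; omega)
        ⟨k, by rw [Polynomial.coeff_divX]; exact hi⟩
      intro hmem
      rw [evP_split, map_add, map_mul, pK_C] at hmem
      have hc : cst R K (P.coeff 0) ∈ (gaussL R K).nonunits := (cst_mem_nonunits_iff _).2 h0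
      have h2 : pK R K σ * pK R K (evP σ P.divX) ∈ (gaussL R K).nonunits := by
        have := sub_mem_nonunits (gaussL R K) hmem hc
        rwa [add_sub_cancel_right] at this
      rcases mem_or_of_mul_mem (gaussL R K) (pK_mem _) h2 with h | h
      · exact pK_notMem_nonunits hσ1 h
      · exact h1 h

theorem not_isUnit_add {a b : R} (ha : ¬ IsUnit a) (hb : ¬ IsUnit b) : ¬ IsUnit (a + b) := by
  have h1 : a ∈ IsLocalRing.maximalIdeal R := (IsLocalRing.mem_maximalIdeal a).2 ha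
  have h2 : b ∈ IsLocalRing.maximalIdeal R := (IsLocalRing.mem_maximalIdeal b).2 hb
  exact (IsLocalRing.mem_maximalIdeal _).1 (Ideal.add_mem _ h1 h2)

/-- peeling off the common power of `σ`. -/
theorem peel {σ υ : PowerSeries R} (hσ : PowerSeries.constantCoeff σ = 0)
    (hσ1 : IsUnit (PowerSeries.coeff 1 σ)) (hυ : IsUnit (PowerSeries.constantCoeff υ)) :
    ∀ (d : ℕ) (A B : R[X]), B.natDegree ≤ d → (∃ i, IsUnit (B.coeff i)) →
      pK R K (υ * evP σ B - evP σ A) ∈ (gaussL R K).nonunits →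
      ∃ P₁ R₁ : R[X], IsUnit (P₁.coeff 0) ∧ IsUnit (R₁.coeff 0) ∧
        pK R K (υ * evP σ R₁ - evP σ P₁) ∈ (gaussL R K).nonunits := by
  intro d
  induction d with
  | zero =>
    intro A B hd ⟨i, hi⟩ hm
    have h0 : IsUnit (B.coeff 0) := by
      rcases Nat.eq_zero_or_pos i with rfl | hpos
      · exact hi
      · rw [Polynomial.coeff_eq_zero_of_natDegree_lt (by omega)] at hi
        exact absurd hi not_isUnit_zero
    refine ⟨A, B, ?_, h0, hm⟩
    by_contra hA
    have h1 := not_isUnit_coeff_of_mem hm 0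
    rw [PowerSeries.coeff_zero_eq_constantCoeff_apply, map_sub, map_mul, constantCoeff_evP hσ,
      constantCoeff_evP hσ] at h1
    have := not_isUnit_add h1 hA
    rw [sub_add_cancel] at this
    exact this (hυ.mul h0)
  | succ d ih =>
    intro A B hd ⟨i, hi⟩ hm
    have h1 := not_isUnit_coeff_of_mem hm 0
    rw [PowerSeries.coeff_zero_eq_constantCoeff_apply, map_sub, map_mul, constantCoeff_evP hσ,
      constantCoeff_evP hσ] at h1
    by_cases h0 : IsUnit (B.coeff 0)
    · refine ⟨A, B, ?_, h0, hm⟩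
      by_contra hA
      have := not_isUnit_add h1 hA
      rw [sub_add_cancel] at this
      exact this (hυ.mul h0)
    · have hi0 : i ≠ 0 := by
        rintro rfl
        exact h0 hi
      obtain ⟨k, rfl⟩ := Nat.exists_eq_succ_of_ne_zero hi0
      have hA : ¬ IsUnit (A.coeff 0) := by
        intro hA
        have h2 : ¬ IsUnit (PowerSeries.constantCoeff υ * B.coeff 0) := by
          intro h
          exact h0 (isUnit_of_mul_isUnit_right h)
        have h3 : ¬ IsUnit (-(PowerSeries.constantCoeff υ * B.coeff 0 - A.coeff 0)) := by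
          rwa [IsUnit.neg_iff]
        have := not_isUnit_add h3 h2
        rw [neg_sub, sub_add_cancel] at this
        exact this hA
      apply ih A.divX B.divX (by rw [Polynomial.natDegree_divX_eq_natDegree_tsub_one]; omega)
        ⟨k, by rw [Polynomial.coeff_divX]; exact hi⟩
      have e : υ * evP σ B - evP σ A = σ * (υ * evP σ B.divX - evP σ A.divX) +
          (υ * PowerSeries.C (B.coeff 0) - PowerSeries.C (A.coeff 0)) := by
        rw [evP_split σ B, evP_split σ A]
        ring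
      rw [e, map_add, map_mul] at hm
      have hc : pK R K (υ * PowerSeries.C (B.coeff 0) - PowerSeries.C (A.coeff 0)) ∈
          (gaussL R K).nonunits := by
        rw [map_sub, map_mul, pK_C, pK_C]
        exact sub_mem_nonunits _ (mul_mem_nonunits _ (pK_mem _) ((cst_mem_nonunits_iff _).2 h0))
          ((cst_mem_nonunits_iff _).2 hA)
      have h2 := sub_mem_nonunits (gaussL R K) hm hc
      rw [add_sub_cancel_right] at h2
      rcases mem_or_of_mul_mem (gaussL R K) (pK_mem _) h2 with h | h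
      · exact absurd h (pK_notMem_nonunits hσ1)
      · exact h

theorem exists_prim_poly_aux {ϖ : R} (hϖ : Irreducible ϖ) (v : ℕ) :
    ∀ (B : R[X]) (i : ℕ) (u : R), IsUnit u → B.coeff i = u * ϖ ^ v →
      ∃ (b : ℕ) (B' : R[X]), B = C (ϖ ^ b) * B' ∧ ∃ k, IsUnit (B'.coeff k) := by
  induction v with
  | zero =>
    intro B i u hu h
    exact ⟨0, B, by simp, i, by rw [h]; simpa using hu⟩
  | succ v ih =>
    intro B i u hu h
    by_cases hB : ∃ k, IsUnit (B.coeff k)
    · exact ⟨0, B, by simp, hB⟩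
    · push Not at hB
      have hd : C ϖ ∣ B := by
        rw [Polynomial.C_dvd_iff_dvd_coeff]
        intro k
        have h1 : B.coeff k ∈ IsLocalRing.maximalIdeal R := (IsLocalRing.mem_maximalIdeal _).2 (hB k)
        rw [(IsDiscreteValuationRing.irreducible_iff_uniformizer ϖ).1 hϖ,
          Ideal.mem_span_singleton] at h1
        exact h1
      obtain ⟨B₁, rfl⟩ := hd
      have h2 : B₁.coeff i = u * ϖ ^ v := by
        rw [Polynomial.coeff_C_mul, pow_succ] at h
        apply mul_left_cancel₀ hϖ.ne_zero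
        rw [h]; ring
      obtain ⟨b, B', rfl, hk⟩ := ih B₁ i u hu h2
      exact ⟨b + 1, B', by rw [pow_succ, C_mul]; ring, hk⟩

theorem exists_prim_poly {ϖ : R} (hϖ : Irreducible ϖ) {B : R[X]} (hB : B ≠ 0) :
    ∃ (b : ℕ) (B' : R[X]), B = C (ϖ ^ b) * B' ∧ ∃ k, IsUnit (B'.coeff k) := by
  have h0 : B.leadingCoeff ≠ 0 := Polynomial.leadingCoeff_ne_zero.2 hB
  obtain ⟨n, u, hu⟩ := IsDiscreteValuationRing.eq_unit_mul_pow_irreducible h0 hϖ
  exact exists_prim_poly_aux hϖ n B B.natDegree u u.isUnit hu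

/-- clearing denominators. -/
theorem exists_int_poly (s : LaurentSeries K) (A₀ : K[X]) :
    ∃ (c : R) (A : R[X]), c ≠ 0 ∧ A.eval₂ (cst R K) s = cst R K c * aeval s A₀ := by
  obtain ⟨b, hbM, hb⟩ := IsLocalization.integerNormalization_spec (nonZeroDivisors R) A₀
  refine ⟨b, IsLocalization.integerNormalization (nonZeroDivisors R) A₀,
    nonZeroDivisors.ne_zero hbM, ?_⟩
  have h1 := congrArg (aeval s) hb
  rw [Polynomial.aeval_def, Polynomial.eval₂_map] at h1
  have h2 : ((b : R) • A₀ : K[X]) = C (algebraMap R K b) * A₀ := by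
    rw [Polynomial.C_mul', algebraMap_smul]
  rw [h2, map_mul, Polynomial.aeval_C] at h1
  exact h1

/-- **RatFun**, power series form. -/
theorem ratFun {σ υ : PowerSeries R} (hσ : PowerSeries.constantCoeff σ = 0)
    (hσ1 : IsUnit (PowerSeries.coeff 1 σ)) (hυ : IsUnit (PowerSeries.constantCoeff υ))
    {y : LaurentSeries K} (hy : y ∈ IntermediateField.adjoin K {pK R K σ})
    (h : pK R K υ - y ∈ (gaussL R K).nonunits) :
    ∃ P₁ R₁ : R[X], IsUnit (P₁.coeff 0) ∧ IsUnit (R₁.coeff 0) ∧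
      pK R K υ * R₁.eval₂ (cst R K) (pK R K σ) - P₁.eval₂ (cst R K) (pK R K σ) ∈
        (gaussL R K).nonunits := by
  obtain ⟨ϖ, hϖ⟩ := IsDiscreteValuationRing.exists_irreducible R
  have hυn : pK R K υ ∉ (gaussL R K).nonunits :=
    pK_notMem_nonunits (n := 0) (by rwa [PowerSeries.coeff_zero_eq_constantCoeff_apply])
  have hy1 : y ∈ gaussL R K := by
    have : y = pK R K υ - (pK R K υ - y) := by ring
    rw [this]
    exact sub_mem (pK_mem _) (mem_of_mem_nonunits _ h)
  have hy2 : y ∉ (gaussL R K).nonunits := by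
    intro hy2
    have := add_mem_nonunits _ h hy2
    rw [sub_add_cancel] at this
    exact hυn this
  have hy0 : y ≠ 0 := fun h0 => hy2 (h0 ▸ zero_mem_nonunits _)
  obtain ⟨A₀, B₀, hyeq⟩ := IntermediateField.mem_adjoin_simple_iff K y |>.1 hy
  have hB0 : aeval (pK R K σ) B₀ ≠ 0 := by
    intro h0
    rw [h0, div_zero] at hyeq
    exact hy0 hyeq
  have hA0 : aeval (pK R K σ) A₀ ≠ 0 := by
    intro h0
    rw [h0, zero_div] at hyeq
    exact hy0 hyeq
  obtain ⟨c₁, A₂, hc₁, hA₂⟩ := exists_int_poly (R := R) (pK R K σ) A₀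
  obtain ⟨c₂, B₂, hc₂, hB₂⟩ := exists_int_poly (R := R) (pK R K σ) B₀
  have hA₂0 : A₂ ≠ 0 := by
    rintro rfl
    rw [Polynomial.eval₂_zero] at hA₂
    exact (mul_ne_zero (cst_ne_zero hc₁) hA0) hA₂.symm
  have hB₂0 : B₂ ≠ 0 := by
    rintro rfl
    rw [Polynomial.eval₂_zero] at hB₂
    exact (mul_ne_zero (cst_ne_zero hc₂) hB0) hB₂.symm
  have hA₃0 : C c₂ * A₂ ≠ 0 := mul_ne_zero (by rwa [Ne, Polynomial.C_eq_zero]) hA₂0
  have hB₃0 : C c₁ * B₂ ≠ 0 := mul_ne_zero (by rwa [Ne, Polynomial.C_eq_zero]) hB₂0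
  have hrel : y * (C c₁ * B₂).eval₂ (cst R K) (pK R K σ) =
      (C c₂ * A₂).eval₂ (cst R K) (pK R K σ) := by
    rw [Polynomial.eval₂_mul, Polynomial.eval₂_mul, Polynomial.eval₂_C, Polynomial.eval₂_C, hA₂, hB₂,
      hyeq]
    field_simp
  obtain ⟨a, A, hAe, hA⟩ := exists_prim_poly hϖ hA₃0
  obtain ⟨b, B, hBe, hB⟩ := exists_prim_poly hϖ hB₃0
  rw [hAe, hBe, Polynomial.eval₂_mul, Polynomial.eval₂_mul, Polynomial.eval₂_C, Polynomial.eval₂_C,
    map_pow, map_pow, ← pK_evP, ← pK_evP, pK_eq, pK_eq] at hrel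
  have hAn := evP_notMem_nonunits (K := K) hσ hσ1 A.natDegree A le_rfl hA
  have hBn := evP_notMem_nonunits (K := K) hσ hσ1 B.natDegree B le_rfl hB
  have hPA : Prim (HahnSeries.ofPowerSeries ℤ R (evP σ A)) := by
    by_contra hP
    apply hAn
    rw [pK_eq, cR_mem_nonunits_iff]
    intro n hn
    exact hP ⟨n, hn⟩
  have hPB : Prim (HahnSeries.ofPowerSeries ℤ R (evP σ B)) := by
    by_contra hP
    apply hBn
    rw [pK_eq, cR_mem_nonunits_iff]
    intro n hn
    exact hP ⟨n, hn⟩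
  have hc := cst_ne_zero (K := K) hϖ.ne_zero
  have e : y * cR R K (HahnSeries.ofPowerSeries ℤ R (evP σ B)) =
      cst R K ϖ ^ ((a : ℤ) - b) * cR R K (HahnSeries.ofPowerSeries ℤ R (evP σ A)) := by
    rw [zpow_sub₀ hc, zpow_natCast, zpow_natCast, div_mul_eq_mul_div, eq_div_iff (pow_ne_zero _ hc),
      ← hrel]
    ring
  have hk1 := (nf_mem_iff hϖ hPA hPB e).1 hy1
  have hk2 : ¬ (0 : ℤ) < (a : ℤ) - b := fun hk => hy2 ((nf_mem_nonunits_iff hϖ hPA hPB e).2 hk)
  have hk : (a : ℤ) - b = 0 := by omega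
  rw [hk, zpow_zero, one_mul] at e
  have hm : pK R K (υ * evP σ B - evP σ A) ∈ (gaussL R K).nonunits := by
    have e2 : pK R K (υ * evP σ B - evP σ A) =
        (pK R K υ - y) * pK R K (evP σ B) := by
      rw [map_sub, map_mul, sub_mul, pK_eq (evP σ A), ← e, ← pK_eq]
    rw [e2]
    exact mul_mem_nonunits' _ h (pK_mem _)
  obtain ⟨P₁, R₁, h1, h2, h3⟩ := peel hσ hσ1 hυ B.natDegree A B le_rfl hB hm
  refine ⟨P₁, R₁, h1, h2, ?_⟩
  rw [map_sub, map_mul, pK_evP, pK_evP] at h3
  exact h3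

/-- a Laurent series without negative terms is a power series. -/
theorem exists_ps {α : LaurentSeries R} (h : ∀ n < 0, α.coeff n = 0) :
    ∃ υ : PowerSeries R, HahnSeries.ofPowerSeries ℤ R υ = α ∧
      PowerSeries.constantCoeff υ = α.coeff 0 := by
  refine ⟨PowerSeries.mk fun n => α.coeff n, ?_, ?_⟩
  · ext n
    rcases lt_or_ge n 0 with hn | hn
    · rw [h n hn]
      change ((PowerSeries.mk fun n : ℕ => α.coeff n : PowerSeries R) : LaurentSeries R).coeff n = 0
      rw [PowerSeries.coeff_coe, if_pos hn]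
    · obtain ⟨k, rfl⟩ := Int.eq_ofNat_of_zero_le hn
      rw [coeff_ofPS, PowerSeries.coeff_mk]
  · rw [← PowerSeries.coeff_zero_eq_constantCoeff_apply, PowerSeries.coeff_mk]
    rfl

/-- the inverse of `J₀ = u Q⁻¹ + ..`. -/
theorem exists_sigma {J₀ : LaurentSeries R} (hJ0 : ∀ n < -1, J₀.coeff n = 0)
    (hJ1 : IsUnit (J₀.coeff (-1))) :
    ∃ σ : PowerSeries R, PowerSeries.constantCoeff σ = 0 ∧ IsUnit (PowerSeries.coeff 1 σ) ∧
      pK R K σ = (cR R K J₀)⁻¹ := by
  have h1 : ∀ n < 0, (HahnSeries.single (1 : ℤ) (1 : R) * J₀).coeff n = 0 := by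
    intro n hn
    have : n = (n - 1) + 1 := by ring
    rw [this, HahnSeries.coeff_single_mul_add, one_mul]
    exact hJ0 _ (by omega)
  obtain ⟨ε, hε, hε0⟩ := exists_ps h1
  have h2 : (HahnSeries.single (1 : ℤ) (1 : R) * J₀).coeff 0 = J₀.coeff (-1) := by
    have : (0 : ℤ) = (-1) + 1 := by ring
    rw [this, HahnSeries.coeff_single_mul_add, one_mul]
  rw [h2] at hε0
  obtain ⟨u, hu⟩ := hJ1
  have hinv : ε * PowerSeries.invOfUnit ε u = 1 :=
    PowerSeries.mul_invOfUnit ε u (by rw [hε0, hu])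
  refine ⟨PowerSeries.X * PowerSeries.invOfUnit ε u, by simp, ?_, ?_⟩
  · have : PowerSeries.coeff 1 (PowerSeries.X * PowerSeries.invOfUnit ε u) =
        PowerSeries.coeff 0 (PowerSeries.invOfUnit ε u) := PowerSeries.coeff_succ_X_mul 0 _
    rw [this, PowerSeries.coeff_zero_eq_constantCoeff_apply, PowerSeries.constantCoeff_invOfUnit]
    exact (u⁻¹).isUnit
  · have h3 : pK R K (PowerSeries.X * PowerSeries.invOfUnit ε u) * cR R K J₀ = 1 := by
      have h4 : HahnSeries.ofPowerSeries ℤ R (PowerSeries.X * PowerSeries.invOfUnit ε u) * J₀ = 1 := by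
        rw [map_mul, HahnSeries.ofPowerSeries_X, mul_right_comm, ← hε, ← map_mul, hinv, map_one]
      rw [pK_eq, ← map_mul, h4, map_one]
    exact eq_inv_of_mul_eq_one_left h3

/-- **RatFun**, in the form used by `Mid/Rat.lean` (steps (3)-(6) of its sketch). -/
theorem ratFun_j {J₀ U₀ : LaurentSeries R} (hJ0 : ∀ n < -1, J₀.coeff n = 0)
    (hJ1 : IsUnit (J₀.coeff (-1))) (hneg : ∀ n < 0, U₀.coeff n = 0) (h0 : IsUnit (U₀.coeff 0))
    {y : LaurentSeries K} (hy : y ∈ IntermediateField.adjoin K {cR R K J₀})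
    (h : cR R K U₀ - y ∈ (gaussL R K).nonunits) :
    ∃ P₁ R₁ : R[X], IsUnit (P₁.coeff 0) ∧ IsUnit (R₁.coeff 0) ∧
      evR R K (cR R K J₀)⁻¹ R₁ * cR R K U₀ - evR R K (cR R K J₀)⁻¹ P₁ ∈ (gaussL R K).nonunits := by
  obtain ⟨σ, hσ, hσ1, hσe⟩ := exists_sigma (K := K) hJ0 hJ1
  obtain ⟨υ, hυ, hυ0⟩ := exists_ps hneg
  have hυe : pK R K υ = cR R K U₀ := by rw [pK_eq, hυ]
  have hy' : y ∈ IntermediateField.adjoin K {pK R K σ} := by
    have hle : IntermediateField.adjoin K {cR R K J₀} ≤ IntermediateField.adjoin K {pK R K σ} := by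
      rw [IntermediateField.adjoin_simple_le_iff]
      have := inv_mem (IntermediateField.mem_adjoin_simple_self K (pK R K σ))
      have e : (pK R K σ)⁻¹ = cR R K J₀ := by rw [hσe, inv_inv]
      rwa [e] at this
    exact hle hy
  obtain ⟨P₁, R₁, h1, h2, h3⟩ := ratFun hσ hσ1 (by rw [hυ0]; exact h0) hy' (by rw [hυe]; exact h)
  refine ⟨P₁, R₁, h1, h2, ?_⟩
  rw [hυe, hσe, mul_comm] at h3
  exact h3

end Fermat.Agent.S36.Mid
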