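import Fermat.Agent.S34.V2.Inst
import Fermat.Agent.S34.V2.Frob
import Fermat.Agent.S34.V2.TwoCount
import Fermat.Agent.S34.Mod.Main

set_option autoImplicit false
set_option linter.unusedSectionVars false

/-!
# S36 / Mid / RatTwo : residue degree one at level `q` over level `1`   (task MID-Rat-Two)

`U ∈ F_{q,K}` integral for the Gauss valuation is congruent to some `y ∈ F_{1,K} = K(j)`.

## SKETCH  (steps (1), (2) of `Mid/Rat.lean`)
(0) rewrite `hU : U ∈ FK K q` as `U ∈ FK K (1 * q)` (`one_mul`).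
(1) `T' : Two R K q ↥(FK K 1) ↥(FK K (1 * q))` := `V2.instTwo (Mod.FK_le 1 q) (fun _ hz => InQF.of_mem_FK hz) (Mod.wQ K (1 * q) q) w_w w_low (Mod.degLE ι 1 q hq (by q ∤ 1)) (jqModC R) hx hord hlead hq hqR hfrob`
    (the algebra structure is `letI := V2.algIncl (Mod.FK_le 1 q)`), where
    * `w_w := Mod.out_W_invol ..`, `w_low := Mod.out_W_low ..` with `N = 1 * q`: `q ∣ 1 * q`, `¬ q ^ 2 ∣ 1 * q`, `1 * q / q = 1` (see `S34/V2/Conc.lean`, `Ctx.w_w`, `Ctx.w_low` for the same at level `M`);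
    * `hx : cR R K (jqModC R) ∈ FK K 1`: `cR R K (jqModC R) = jqModC K` (`coeffMap_jqModC`), `Mod.jS_mem K (dvd_refl 1)`, `Mod.jS_one`;
    * `hord`, `hlead`: `jqModC R = single (-1) 1 * ofPowerSeries (jNum.map _)` (by `rfl`/`jqModC`), `S18.XSer.order_aux R _ (constant coefficient 1)` gives order `-1` and leading coefficient `1` (`HahnSeries.leadingCoeff_eq`);
    * `hfrob := V2.frob_congr_int q hq hqR (jqModC ℤ)` up to `coeffMap_jqModC` (see how `S34/V2/Conc.lean` does it for `xK`).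
(2) `T'.res_deg_one (z := ⟨U, hU⟩) hUg` gives `y : ↥(FK K 1)`, `y ∈ T'.VE` (`Two.mem_VE`: `T'.jE y = y.1 ∈ gaussL`), `⟨U, hU⟩ - algebraMap _ _ y ∈ T'.Vi.nonunits` (`Two.mem_Vi_nonunits`, `map_sub`, `T'.compat`; `T'.jF z = z.1`, `T'.jE y = y.1` by `rfl`).
-/

noncomputable section

namespace Fermat.Agent.S36.Mid

open ModularCurve Polynomial IntermediateField Fermat.Agent.S18 Fermat.Agent.S18.V Fermat.Agent.S34.V2

theorem rt_cR_jq {R K : Type} [CommRing R] [Field K] [Algebra R K] :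
    cR R K (jqModC R) = jqModC K := coeffMap_jqModC _

theorem rt_not_sq {q : ℕ} (hq : q.Prime) : ¬ q ^ 2 ∣ 1 * q := by
  intro h
  rw [pow_two, one_mul] at h
  have := Nat.le_of_dvd hq.pos h
  have h2 := hq.two_le
  nlinarith

/-- the abstract statement: residue degree one for `instTwo`. -/
theorem rt_abs {R K : Type} [CommRing R] [IsDomain R] [IsDiscreteValuationRing R] [Field K]
    [CharZero K] [Algebra R K] [IsFractionRing R K] {q : ℕ} [NeZero q]
    {E₁ F₁ : IntermediateField K (LaurentSeries K)} (h : E₁ ≤ F₁) (hQF : ∀ z ∈ F₁, InQF R z)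
    (w : ↥F₁ ≃ₐ[K] ↥F₁) (w_w : ∀ z, w (w z) = z)
    (w_low : ∀ y : ↥E₁, (w (IntermediateField.inclusion h y)).1 = qExpand K q y.1)
    (hs : Mod.DegLE (E₁ : Set (LaurentSeries K)) F₁ (q + 1)) (x₀ : LaurentSeries R)
    (hx : cR R K x₀ ∈ E₁) (hord : x₀.order = -1) (hlead : IsUnit (x₀.coeff (-1))) (hq : q.Prime)
    (hqR : ¬ IsUnit (q : R))
    (hfrob : qExpand K q (cR R K x₀) - cR R K x₀ ^ q ∈ (gaussL R K).nonunits)
    (U : LaurentSeries K) (hU : U ∈ F₁) (hUg : U ∈ gaussL R K) :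
    ∃ y ∈ E₁, y ∈ gaussL R K ∧ U - y ∈ (gaussL R K).nonunits := by
  let _ := algIncl h
  have htow : IsScalarTower K ↥E₁ ↥F₁ := algIncl_tower _
  let T' : Two R K q ↥E₁ ↥F₁ :=
    instTwo h hQF w w_w w_low hs x₀ hx hord hlead hq hqR hfrob
  obtain ⟨y, hy, h1⟩ := T'.res_deg_one (z := ⟨U, hU⟩) hUg
  refine ⟨y.1, y.2, hy, ?_⟩
  rw [T'.mem_Vi_nonunits, map_sub, T'.compat] at h1
  exact h1

theorem exists_level_one {R K : Type} [CommRing R] [IsDomain R] [IsDiscreteValuationRing R] [Field K]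
    [CharZero K] [Algebra R K] [IsFractionRing R K] (ι : K →+* S24.Kb) (q : ℕ) [NeZero q]
    (hq : q.Prime) (hqR : ¬ IsUnit (q : R)) (U : LaurentSeries K)
    (hU : U ∈ Fermat.Agent.Mod.FK K q) (hUg : U ∈ gaussL R K) :
    ∃ y ∈ Fermat.Agent.Mod.FK K 1, y ∈ gaussL R K ∧ U - y ∈ (gaussL R K).nonunits := by
  have hU' : U ∈ Fermat.Agent.Mod.FK K (1 * q) := by rwa [one_mul]
  have hle : Fermat.Agent.Mod.FK K 1 ≤ Fermat.Agent.Mod.FK K (1 * q) := Mod.FK_le 1 q
  have hq1 : ¬ q ∣ 1 := fun h => hq.one_lt.ne' (Nat.dvd_one.1 h)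
  have hord := XSer.order_aux R (jNum.map (Int.castRingHom R)) (by
    rw [← PowerSeries.coeff_zero_eq_constantCoeff_apply, PowerSeries.coeff_map,
      PowerSeries.coeff_zero_eq_constantCoeff_apply, constantCoeff_jNum, map_one])
  have hlead : IsUnit ((jqModC R).coeff (-1)) := by
    have h1 : (jqModC R).leadingCoeff = 1 := hord.2
    have h2 : (jqModC R).order = -1 := hord.1
    rw [HahnSeries.leadingCoeff_eq, h2] at h1
    rw [h1]
    exact isUnit_one
  exact rt_abs hle (fun _ hz => InQF.of_mem_FK hz) (Mod.wQ K (1 * q) q)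
      (fun z => Mod.out_W_invol K (1 * q) q hq (dvd_mul_left q 1) (rt_not_sq hq) z)
      (fun y => by
        have h := Mod.out_W_low K (1 * q) q hq (dvd_mul_left q 1) (rt_not_sq hq)
          (IntermediateField.inclusion hle y) (by
            rw [Nat.mul_div_cancel _ hq.pos, IntermediateField.coe_inclusion]
            exact y.2)
        rw [IntermediateField.coe_inclusion] at h
        exact h)
      (Mod.degLE ι 1 q hq hq1) (jqModC R)
      (by
        rw [rt_cR_jq, ← Mod.jS_one]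
        exact Mod.jS_mem K (dvd_refl 1))
      hord.1 hlead hq hqR
      (by
        rw [rt_cR_jq, ← coeffMap_jqModC (Int.castRingHom K)]
        exact frob_congr_int q hq hqR (jqModC ℤ)) U hU' hUg

end Fermat.Agent.S36.Mid
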