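import Fermat.Agent.S36.Mid.Exp
import Fermat.Agent.GES.FrobSeries

set_option autoImplicit false
set_option linter.unusedSectionVars false

/-!
# S36 / Mid / Ser : the identities in `κ((Q))`, `char κ = q`   (tasks MID-SerD, MID-SerT, MID-Ser3)

`ThetaIds A` = helper18's chapter TH (`(θ j)^6 = j^4 (j - 1728)^3 Δ` and its two consequences), stated with `Mid.th`.

## SKETCHES
* `dS_pow` (MID-SerD): `GES.pow_char_eq q (S28.dS κ) : dS^q = qExpand κ q (coeffMap (frobenius κ q) (dS κ))`, `S28.coeffMap_dS`; `q = (q - 1) + 1`, `pow_succ`;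
  multiply by `S28.dInv κ` (`S28.dS_mul_dInv`); `Mod.DKinv κ q = S28.dInv κ * qExpand κ q (S28.dS κ)` by definition.
* `ser_j`, `ser_x3`, `ser_x2` (MID-SerT): `zS κ` is a ring hom: `simp only [map_mul, map_pow, map_add, map_sub, map_ofNat, zS_jq, zS_xZ, zS_DKinv]`; `pow_mul'`/`pow_mul` + `H.j` etc., `mul_pow`, `dS_pow`.
* `ser_three` (MID-Ser3): `jqModC κ = single (-1) 1 * ofPowerSeries (jNum.map _)` (definition, `S18.jq_eq` over `ℤ`), `jNum = eisenstein4 ^ 3 * dedekindEtaUnitInv`, so `jqModC κ = e4^3 * S28.dInv κ`, `e4 = ofPowerSeries (eisenstein4.map (Int.castRingHom κ))`;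
  `eisenstein4.map (Int.castRingHom κ) = 1` in characteristic `3` (coefficients `240 σ₃(n)`, `(240 : κ) = 0`; see the definition in `Prelude/Def_ModularCurve_X0.lean`);
  then `dInv^2 * (dInv * qExpand 3 dS) = dInv^3 * dS^3 = 1` (`GES.pow_char_eq 3`, as in `dS_pow`).
-/

noncomputable section

namespace Fermat.Agent.S36.Mid

open ModularCurve Polynomial Fermat.Agent.S18 Fermat.Agent.Mod

/-- the three `θ`-identities over `A` (chapter TH). -/
structure ThetaIds (A : Type) [CommRing A] : Prop where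
  j : th (jqModC A) ^ 6 = jqModC A ^ 4 * (jqModC A - 1728) ^ 3 * S28.dS A
  x3 : th (xK A line3) ^ 6 = xK A line3 ^ 3 * (xK A line3 + 27) ^ 4 * S28.dS A
  x2 : th (xK A line2) ^ 6 = xK A line2 ^ 4 * (xK A line2 + 64) ^ 3 * S28.dS A

variable (κ : Type) [Field κ] (q : ℕ) [NeZero q] [Fact q.Prime] [CharP κ q]

/-- `Δ^(q-1) = Δ(Q^q)/Δ(Q)` in characteristic `q`. -/
theorem dS_pow : S28.dS κ ^ (q - 1) = DKinv κ q := by
  have h1 : S28.dS κ ^ q = qExpand κ q (S28.dS κ) := by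
    rw [GES.pow_char_eq q (S28.dS κ), S28.coeffMap_dS]
  have h2 : q = (q - 1) + 1 := (Nat.sub_add_cancel (Fact.out (p := q.Prime)).one_le).symm
  have h3 : S28.dS κ ^ (q - 1) * S28.dS κ = qExpand κ q (S28.dS κ) := by
    rw [← pow_succ, ← h2, h1]
  rw [DKinv, ← h3]
  have h4 := S28.dS_mul_dInv κ
  linear_combination (- S28.dS κ ^ (q - 1)) * h4

variable {κ}

theorem ser_j (H : ThetaIds κ) : th (zS κ (jqModC ℤ)) ^ ((q - 1) * 6) =
    zS κ ((jqModC ℤ ^ 4 * (jqModC ℤ - 1728) ^ 3) ^ (q - 1) * DKinv ℤ q) := by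
  simp only [map_mul, map_pow, map_add, map_sub, map_ofNat, zS_jq, zS_xZ, zS_DKinv]
  rw [pow_mul', H.j, mul_pow, dS_pow]

theorem ser_x3 (H : ThetaIds κ) : th (zS κ (xZ line3)) ^ ((q - 1) * 6) =
    zS κ ((xZ line3 ^ 3 * (xZ line3 + 27) ^ 4) ^ (q - 1) * DKinv ℤ q) := by
  simp only [map_mul, map_pow, map_add, map_sub, map_ofNat, zS_jq, zS_xZ, zS_DKinv]
  rw [pow_mul', H.x3, mul_pow, dS_pow]

theorem ser_x2 (H : ThetaIds κ) : th (zS κ (xZ line2)) ^ ((q - 1) * 6) =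
    zS κ ((xZ line2 ^ 4 * (xZ line2 + 64) ^ 3) ^ (q - 1) * DKinv ℤ q) := by
  simp only [map_mul, map_pow, map_add, map_sub, map_ofNat, zS_jq, zS_xZ, zS_DKinv]
  rw [pow_mul', H.x2, mul_pow, dS_pow]

/-- `j^2 Δ(Q^3)/Δ(Q) = 1` in characteristic `3`. -/
theorem ser_three (κ : Type) [Field κ] [CharP κ 3] :
    zS κ (jqModC ℤ ^ 2 * DKinv ℤ 3 - 1) = 0 := by
  haveI : Fact (Nat.Prime 3) := ⟨Nat.prime_three⟩
  have he : eisenstein4.map (Int.castRingHom κ) = 1 := by
    ext n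
    rw [PowerSeries.coeff_map, eisenstein4, PowerSeries.coeff_mk, PowerSeries.coeff_one]
    split_ifs with h
    · simp
    · have h240 : ((240 : ℤ) : κ) = 0 := by
        have : ((3 : ℕ) : κ) = 0 := CharP.cast_eq_zero κ 3
        have h3 : (3 : κ) = 0 := by exact_mod_cast this
        push_cast
        linear_combination 80 * h3
      rw [eq_intCast, Int.cast_mul, h240, zero_mul]
  have hj : jqModC κ = S28.dInv κ := by
    rw [jqModC, S28.dInv, jNum, map_mul, map_pow, he, one_pow, one_mul]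
  have h1 : S28.dS κ ^ 3 = qExpand κ 3 (S28.dS κ) := by
    rw [GES.pow_char_eq 3 (S28.dS κ), S28.coeffMap_dS]
  simp only [map_mul, map_pow, map_sub, map_one, zS_jq, zS_DKinv]
  rw [hj, DKinv, ← h1]
  have h4 := S28.dS_mul_dInv κ
  linear_combination ((S28.dS κ * S28.dInv κ) ^ 2 + S28.dS κ * S28.dInv κ + 1) * h4

end Fermat.Agent.S36.Mid
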